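/-
S36lib / Eis / Degree  (helper2)

**`j(t^(q²))` has degree `q` over `FBar (M q)`** (along `α`), i.e. `1, y, …, y^(q-1)` is a basis of
`FBar (M q q)` over `α (FBar (M q))`.

Proof: on the `β`-side the twist `T : f(t) ↦ f(ζ t)` (`ζ` a primitive `q`-th root of unity) of
`ℚ̄((t))` fixes `β (FBar (M q)) ⊆ ℚ̄((t^q))` pointwise and moves `x = j(t)` to the `q` distinct
series `j(ζ^i t)`; hence `1, x, …, x^(q-1)` are linearly independent over `β (FBar (M q))`.
Transport by the Atkin–Lehner involution `w_{q²}` (`w_{q²} α = β w_q`, `w_{q²} y = x`) and compare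
with the degree `ψ(M q²) / ψ(M q) = q`.
-/
import Mathlib
import Fermat.Agent.S36lib.AL.WQDeg
import Fermat.Agent.S28lib.Twist
import Fermat.Agent.S28lib.Series
import Fermat.Agent.LSb.Val.Kron
import Fermat.Agent.S28lib.PsiStep

set_option autoImplicit false
set_option linter.unusedSectionVars false
set_option linter.unusedVariables false
set_option linter.style.haveILetI false

noncomputable section

namespace Fermat.Agent.S36lib.Eis

open ModularCurve Polynomial Fermat.Agent.S18lib Fermat.Agent.S28lib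
open Fermat.Agent.LSb.Val Fermat.Agent.S36lib.AL

local notation "Qb" => AlgebraicClosure ℚ

/-! ### Laurent series: the twist argument -/

section Series

variable {k : Type*} [Field k]

/-- the twists `j(ζ^i t)`, `i < q`, are pairwise distinct -/
theorem twist_pow_jqModC_injective {q : ℕ} (hq : q.Prime) {ζ : kˣ} (hζ : IsPrimitiveRoot ζ q) :
    Function.Injective (fun i : Fin q => twist (ζ ^ (i : ℕ)) (jqModC k)) := by
  intro i i' h
  have h1 := congrArg (fun g : LaurentSeries k => g.coeff (-1)) h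
  simp only [twist_coeff] at h1
  have hc : (jqModC k).coeff (-1) ≠ 0 := by
    have h0 : jqModC k ≠ 0 := by
      intro h0
      have := order_jqModC (k := k)
      rw [h0, HahnSeries.order_zero] at this
      omega
    have := (HahnSeries.coeff_order_eq_zero (x := jqModC k)).not.mpr h0
    rwa [order_jqModC] at this
  have h2 : (((ζ ^ (i : ℕ)) ^ (-1 : ℤ) : kˣ) : k) = (((ζ ^ (i' : ℕ)) ^ (-1 : ℤ) : kˣ) : k) :=
    mul_right_cancel₀ hc h1
  have h3 : ζ ^ (i : ℕ) = ζ ^ (i' : ℕ) := by
    have := Units.ext h2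
    simpa using this
  have := hζ.pow_inj i.2 i'.2 h3
  exact Fin.ext this

/-- a polynomial of degree `< q` with `twist ζ`-fixed coefficients vanishing at `j` is zero -/
theorem eq_zero_of_eval_jqModC {q : ℕ} (hq : q.Prime) {ζ : kˣ} (hζ : IsPrimitiveRoot ζ q)
    (p : (LaurentSeries k)[X]) (hdeg : p.natDegree < q)
    (hfix : ∀ n, twist ζ (p.coeff n) = p.coeff n) (hroot : p.eval (jqModC k) = 0) : p = 0 := by
  have hfix' : ∀ (i : ℕ) n, twist (ζ ^ i) (p.coeff n) = p.coeff n := by
    intro i n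
    rw [twist_pow_unit]
    induction i with
    | zero => rfl
    | succ i ih => rw [Function.iterate_succ_apply', ih, hfix]
  have hmap : ∀ i : ℕ, p.map (twist (ζ ^ i)) = p := by
    intro i
    ext n : 1
    rw [coeff_map, hfix']
  refine eq_zero_of_natDegree_lt_card_of_eval_eq_zero p
    (twist_pow_jqModC_injective hq hζ) (fun i => ?_) (by rw [Fintype.card_fin]; exact hdeg)
  show p.eval (twist (ζ ^ (i : ℕ)) (jqModC k)) = 0
  conv_lhs => rw [← hmap (i : ℕ)]
  rw [eval_map]
  have := hom_eval₂ p (RingHom.id _) (twist (ζ ^ (i : ℕ))) (jqModC k)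
  rw [RingHom.comp_id, eval₂_id, hroot, map_zero] at this
  exact this.symm

end Series


/-! ### the `β`-side -/

section Beta

variable (M q : ℕ) [NeZero M] [NeZero q] (hq : q.Prime) (hqM : ¬ q ∣ M)

/-- `x = j(t)` at level `M q q` -/
def xTop : FBar (M * q * q) := jd (M * q * q) 1 (one_dvd _)

/-- `y = j(t^(q²))` at level `M q q` -/
def yTop : FBar (M * q * q) := jd (M * q * q) (q * q) (Dvd.intro_left M (Nat.mul_assoc M q q).symm)

theorem coe_xTop : ((xTop M q : FBar (M * q * q)) : LaurentSeries Qb) = jqModC Qb := by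
  rw [xTop, coe_jd_eq, qExpand_one_apply]

theorem exists_primitiveRoot_Qb : ∃ ζ : Qbˣ, IsPrimitiveRoot ζ q := by
  haveI : NeZero ((q : ℕ) : Qb) := ⟨Nat.cast_ne_zero.mpr (NeZero.ne q)⟩
  obtain ⟨ζ, hζ⟩ := HasEnoughRootsOfUnity.exists_primitiveRoot Qb q
  exact ⟨hζ.isUnit (NeZero.ne q) |>.unit, IsPrimitiveRoot.coe_units_iff.mp (by simpa using hζ)⟩

include hq in
/-- `1, x, …, x^(q-1)` are linearly independent over `β (FBar (M q))` -/
theorem eq_zero_of_eval₂_beta (p : (FBar (M * q))[X]) (hdeg : p.natDegree < q)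
    (h : p.eval₂ ((heckeBetaBar Qb (M * q) q : FBar (M * q) →ₐ[Qb] FBar (M * q * q)) :
      FBar (M * q) →+* FBar (M * q * q)) (xTop M q) = 0) : p = 0 := by
  obtain ⟨ζ, hζ⟩ := exists_primitiveRoot_Qb q
  set φ : FBar (M * q) →+* LaurentSeries Qb :=
    ((modularFunctionFieldBar (M * q * q)).val : FBar (M * q * q) →+* LaurentSeries Qb).comp
      ((heckeBetaBar Qb (M * q) q : FBar (M * q) →ₐ[Qb] FBar (M * q * q)) :
        FBar (M * q) →+* FBar (M * q * q)) with hφ
  have hφ_apply : ∀ c, φ c = qExpand Qb q (c : LaurentSeries Qb) := fun c => by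
    rw [hφ]
    exact coe_heckeBetaBar (M * q) q c
  have hinj : Function.Injective φ := φ.injective
  have h0 : (p.map φ) = 0 := by
    refine eq_zero_of_eval_jqModC hq hζ (p.map φ) ?_ ?_ ?_
    · exact (natDegree_map_le).trans_lt hdeg
    · intro n
      rw [coeff_map, hφ_apply]
      exact twist_qExpand_of_pow_eq_one ζ q hζ.pow_eq_one _
    · rw [eval_map, ← coe_xTop M q]
      have h1 := hom_eval₂ p ((heckeBetaBar Qb (M * q) q : FBar (M * q) →ₐ[Qb] FBar (M * q * q)) :
        FBar (M * q) →+* FBar (M * q * q))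
        ((modularFunctionFieldBar (M * q * q)).val : FBar (M * q * q) →+* LaurentSeries Qb)
        (xTop M q)
      rw [h, map_zero] at h1
      exact h1.symm
  exact (Polynomial.map_eq_zero_iff hinj).mp h0

end Beta


/-! ### the `α`-side -/

section Alpha

variable (M q : ℕ) [NeZero M] [NeZero q] (hq : q.Prime) (hqM : ¬ q ∣ M)

/-- the degeneracy map `α : FBar (M q) → FBar (M q q)` as a ring homomorphism -/
abbrev alphaR : FBar (M * q) →+* FBar (M * q * q) :=
  ((heckeAlphaBar Qb (M * q) q : FBar (M * q) →ₐ[Qb] FBar (M * q * q)) :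
    FBar (M * q) →+* FBar (M * q * q))

/-- the degeneracy map `β : FBar (M q) → FBar (M q q)` as a ring homomorphism -/
abbrev betaR : FBar (M * q) →+* FBar (M * q * q) :=
  ((heckeBetaBar Qb (M * q) q : FBar (M * q) →ₐ[Qb] FBar (M * q * q)) :
    FBar (M * q) →+* FBar (M * q * q))

theorem wqq_yTop : wqq M q hq hqM (yTop M q) = xTop M q := by
  have h := wqq_jd_mul_mul M q hq hqM 1 (one_dvd M)
  rw [yTop, xTop, jd_congr (show q * q = 1 * q * q by ring) _
    (Nat.mul_dvd_mul_right (Nat.mul_dvd_mul_right (one_dvd M) q) q)]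
  exact h

theorem wqq_xTop : wqq M q hq hqM (xTop M q) = yTop M q := by
  rw [← wqq_yTop M q hq hqM, wqq_wqq]

include hq hqM in
/-- **`1, y, …, y^(q-1)` are linearly independent over `α (FBar (M q))`** -/
theorem eq_zero_of_eval₂_alpha (p : (FBar (M * q))[X]) (hdeg : p.natDegree < q)
    (h : p.eval₂ (alphaR M q) (yTop M q) = 0) : p = 0 := by
  have h1 := hom_eval₂ p (alphaR M q)
    ((wqq M q hq hqM : FBar (M * q * q) ≃ₐ[Qb] FBar (M * q * q)) :
      FBar (M * q * q) →+* FBar (M * q * q)) (yTop M q)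
  rw [h, map_zero] at h1
  have h2 : (((wqq M q hq hqM : FBar (M * q * q) ≃ₐ[Qb] FBar (M * q * q)) :
      FBar (M * q * q) →+* FBar (M * q * q)).comp (alphaR M q)) =
      (betaR M q).comp ((wq M q hq hqM : FBar (M * q) ≃ₐ[Qb] FBar (M * q)) :
        FBar (M * q) →+* FBar (M * q)) := by
    refine RingHom.ext fun f => ?_
    exact wqq_alpha M q hq hqM f
  rw [h2, ← eval₂_map] at h1
  have h3 : (wqq M q hq hqM : FBar (M * q * q) →+* FBar (M * q * q)) (yTop M q) = xTop M q :=
    wqq_yTop M q hq hqM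
  rw [h3] at h1
  have h4 := eq_zero_of_eval₂_beta M q hq
    (p.map ((wq M q hq hqM : FBar (M * q) ≃ₐ[Qb] FBar (M * q)) : FBar (M * q) →+* FBar (M * q)))
    ((natDegree_map_le).trans_lt hdeg) h1.symm
  exact (Polynomial.map_eq_zero_iff (RingHom.injective _)).mp h4

end Alpha


/-! ### the degree and the power basis -/

section Basis

variable (M q : ℕ) [NeZero M] [NeZero q] (hq : q.Prime) (hqM : ¬ q ∣ M)

include hq in
/-- `[FBar (M q q) : α (FBar (M q))] = q` -/
theorem finrank_alphaR :
    @Module.finrank (FBar (M * q)) (FBar (M * q * q)) _ _ (alphaR M q).toAlgebra.toModule = q := by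
  have h1 := V.dedekindPsi_mul_finrank_inclL (N := M * q) (N' := M * q * q) (Dvd.intro _ rfl)
  rw [Chain.dedekindPsi_mul_prime_of_dvd (NeZero.ne (M * q)) hq
    (Dvd.intro_left M rfl)] at h1
  have hpos : 0 < dedekindPsi (M * q) := Fermat.Agent.ProgramR.BarField.dedekindPsi_pos (M * q)
  have h2 : dedekindPsi (M * q) * @Module.finrank (FBar (M * q)) (FBar (M * q * q)) _ _
      (alphaR M q).toAlgebra.toModule = dedekindPsi (M * q) * q := h1
  exact Nat.eq_of_mul_eq_mul_left hpos h2

include hq hqM in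
/-- **every element of `FBar (M q q)` is a polynomial of degree `< q` in `y = j(t^(q²))` over
`α (FBar (M q))`** -/
theorem exists_eval₂_alpha_eq (f : FBar (M * q * q)) :
    ∃ p : (FBar (M * q))[X], p.degree < q ∧ p.eval₂ (alphaR M q) (yTop M q) = f := by
  letI : Algebra (FBar (M * q)) (FBar (M * q * q)) := (alphaR M q).toAlgebra
  have hfr : Module.finrank (FBar (M * q)) (FBar (M * q * q)) = q := finrank_alphaR M q hq
  haveI : Module.Finite (FBar (M * q)) (FBar (M * q * q)) :=
    Module.finite_of_finrank_pos (by rw [hfr]; exact hq.pos)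
  let ev : Polynomial.degreeLT (FBar (M * q)) q →ₗ[FBar (M * q)] FBar (M * q * q) :=
    (Polynomial.aeval (yTop M q)).toLinearMap.comp (Submodule.subtype _)
  have hev : ∀ p : Polynomial.degreeLT (FBar (M * q)) q,
      ev p = (p : (FBar (M * q))[X]).eval₂ (alphaR M q) (yTop M q) := fun p => rfl
  have hinj : Function.Injective ev := by
    rw [injective_iff_map_eq_zero]
    intro p hp
    rw [hev] at hp
    have hdeg : (p : (FBar (M * q))[X]).natDegree < q := by
      by_cases h0 : (p : (FBar (M * q))[X]) = 0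
      · rw [h0, natDegree_zero]; exact hq.pos
      · exact (natDegree_lt_iff_degree_lt h0).mpr (Polynomial.mem_degreeLT.mp p.2)
    exact Subtype.ext (eq_zero_of_eval₂_alpha M q hq hqM _ hdeg hp)
  have hdim : Module.finrank (FBar (M * q)) (Polynomial.degreeLT (FBar (M * q)) q) =
      Module.finrank (FBar (M * q)) (FBar (M * q * q)) := by
    rw [hfr, (Polynomial.degreeLTEquiv (FBar (M * q)) q).finrank_eq, Module.finrank_fin_fun]
  haveI : Module.Finite (FBar (M * q)) (Polynomial.degreeLT (FBar (M * q)) q) :=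
    Module.Finite.equiv (Polynomial.degreeLTEquiv (FBar (M * q)) q).symm
  obtain ⟨p, hp⟩ := (LinearMap.injective_iff_surjective_of_finrank_eq_finrank hdim).mp hinj f
  exact ⟨p, Polynomial.mem_degreeLT.mp p.2, by rw [← hev, hp]⟩

end Basis


/-! ### the degrees along `α` and `β` in `finrankAlong` form -/

section Along

open AlgebraicCurve

variable (M q : ℕ) [NeZero M] [NeZero q] (hq : q.Prime) (hqM : ¬ q ∣ M)

include hq in
/-- `[FBar (M q q) : α (FBar (M q))] = q` -/
theorem finrankAlong_alpha_dvd : finrankAlong Qb (heckeAlphaBar Qb (M * q) q) = q :=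
  finrank_alphaR M q hq

include hq hqM in
/-- every element of `FBar (M q q)` is a polynomial of degree `< q` in `x = j(t)` over
`β (FBar (M q))` -/
theorem exists_eval₂_beta_eq (f : FBar (M * q * q)) :
    ∃ p : (FBar (M * q))[X], p.degree < q ∧ p.eval₂ (betaR M q) (xTop M q) = f := by
  obtain ⟨p, hp, hpf⟩ := exists_eval₂_alpha_eq M q hq hqM (wqq M q hq hqM f)
  refine ⟨p.map ((wq M q hq hqM : FBar (M * q) ≃ₐ[Qb] FBar (M * q)) :
    FBar (M * q) →+* FBar (M * q)), (degree_map_le).trans_lt hp, ?_⟩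
  have h1 := hom_eval₂ p (alphaR M q)
    ((wqq M q hq hqM : FBar (M * q * q) ≃ₐ[Qb] FBar (M * q * q)) :
      FBar (M * q * q) →+* FBar (M * q * q)) (yTop M q)
  have h2 : (((wqq M q hq hqM : FBar (M * q * q) ≃ₐ[Qb] FBar (M * q * q)) :
      FBar (M * q * q) →+* FBar (M * q * q)).comp (alphaR M q)) =
      (betaR M q).comp ((wq M q hq hqM : FBar (M * q) ≃ₐ[Qb] FBar (M * q)) :
        FBar (M * q) →+* FBar (M * q)) := by
    refine RingHom.ext fun f => ?_
    exact wqq_alpha M q hq hqM f
  have h3 : (wqq M q hq hqM : FBar (M * q * q) →+* FBar (M * q * q)) (yTop M q) = xTop M q :=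
    wqq_yTop M q hq hqM
  rw [hpf, h2, ← eval₂_map, h3] at h1
  rw [← h1]
  exact wqq_wqq M q hq hqM f

include hq hqM in
/-- `[FBar (M q q) : β (FBar (M q))] = q` -/
theorem finrankAlong_beta_dvd : finrankAlong Qb (heckeBetaBar Qb (M * q) q) = q := by
  show @Module.finrank (FBar (M * q)) (FBar (M * q * q)) _ _ (betaR M q).toAlgebra.toModule = q
  letI : Algebra (FBar (M * q)) (FBar (M * q * q)) := (betaR M q).toAlgebra
  let ev : Polynomial.degreeLT (FBar (M * q)) q →ₗ[FBar (M * q)] FBar (M * q * q) :=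
    (Polynomial.aeval (xTop M q)).toLinearMap.comp (Submodule.subtype _)
  have hev : ∀ p : Polynomial.degreeLT (FBar (M * q)) q,
      ev p = (p : (FBar (M * q))[X]).eval₂ (betaR M q) (xTop M q) := fun p => rfl
  have hinj : Function.Injective ev := by
    rw [injective_iff_map_eq_zero]
    intro p hp
    rw [hev] at hp
    have hdeg : (p : (FBar (M * q))[X]).natDegree < q := by
      by_cases h0 : (p : (FBar (M * q))[X]) = 0
      · rw [h0, natDegree_zero]; exact hq.pos
      · exact (natDegree_lt_iff_degree_lt h0).mpr (Polynomial.mem_degreeLT.mp p.2)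
    exact Subtype.ext (eq_zero_of_eval₂_beta M q hq _ hdeg hp)
  have hsurj : Function.Surjective ev := by
    intro f
    obtain ⟨p, hp, hpf⟩ := exists_eval₂_beta_eq M q hq hqM f
    exact ⟨⟨p, Polynomial.mem_degreeLT.mpr hp⟩, by rw [hev]; exact hpf⟩
  have e := LinearEquiv.ofBijective ev ⟨hinj, hsurj⟩
  rw [← e.finrank_eq, (Polynomial.degreeLTEquiv (FBar (M * q)) q).finrank_eq,
    Module.finrank_fin_fun]

end Along

end Fermat.Agent.S36lib.Eis
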