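/-
S36lib / Eis / UnifChart  (helper2)

**The uniformizer `ϖ = j(t^(q²)) − j(t)` of `v_b` has its poles at the cusps** (field
`unif_mem_chart` of `ThickCtx`, through helper3's `HasCharts.unif_mem_chart`).

* `jd_congr`, `jd_mul_mem_of_jd_mem` : `j(t^(d q))` is regular wherever `j(t^d)` is (it is integral
  over `ℤ[j(t^d)]` by the modular equation; converse of helper7's `jd_one_mem_of_jd_mem`);
* `jd_mem_regAway_q`, `jd_mem_regAway_qq` : `j(t^q), j(t^(q²)) ∈ regAway ℚ̄ j`;
* `yTop_sub_xTop_mem_regAway`;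
* `poles_yTop_sub_xTop` : a pole of `j(t^(q²)) − j(t)` is a pole of `j` (`hpoles`-shape).
-/
import Mathlib
import Fermat.Agent.S36lib.Norm.ChartNorm
import Fermat.Agent.S36lib.Eis.Degree
import Fermat.Agent.S36lib.Norm.DescendInst

set_option autoImplicit false
set_option linter.unusedSectionVars false
set_option linter.unusedVariables false

noncomputable section

namespace Fermat.Agent.S36lib.Eis

open ModularCurve AlgebraicCurve Polynomial Fermat.Agent.S18lib Fermat.Agent.S29lib.GH
open Fermat.Agent.LSb.Val Fermat.Agent.S37lib.ConjNorm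
open Fermat.Agent.LSb.Unit (regAway mem_regAway)
open Fermat.Agent.S36lib.Norm Fermat.Agent.ProgramR Fermat.Agent.S37lib.HeckeInst
open Fermat.Agent.S36lib.Desc2

local notation "Qb" => AlgebraicClosure ℚ

section Modular

variable (N q : ℕ) [NeZero N] [NeZero q] [Fact q.Prime]

theorem jd_congr {d d' : ℕ} [NeZero d] [NeZero d'] (h : d = d') (hd : d ∣ N) (hd' : d' ∣ N) :
    jd N d hd = jd N d' hd' := by
  subst h
  rfl

set_option synthInstance.maxHeartbeats 400000 in
/-- at a place where `j(t^d)` is regular, `j(t^(d q))` is regular -/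
theorem jd_mul_mem_of_jd_mem (d : ℕ) [NeZero d] (hd : d ∣ N) (hdq : d * q ∣ N)
    (w : AlgebraicCurve.Place Qb (FBar N)) (h : jd N d hd ∈ w.toValuationSubring) :
    jd N (d * q) hdq ∈ w.toValuationSubring := by
  set O := w.toValuationSubring with hO
  have hmem : ∀ c : (Fermat.Agent.S28lib.Zb)[X],
      Polynomial.eval₂RingHom (iotaFB N) (jd N d hd) c ∈ O.toSubring := by
    intro c
    show Polynomial.eval₂ (iotaFB N) (jd N d hd) c ∈ O
    rw [Polynomial.eval₂_eq_sum_range]
    refine O.sum_mem fun i _ => ?_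
    exact O.mul_mem _ _ (w.algebraMap_mem' _) (O.pow_mem h i)
  let φ : (Fermat.Agent.S28lib.Zb)[X] →+* O.toSubring :=
    (Polynomial.eval₂RingHom (iotaFB N) (jd N d hd)).codRestrict O.toSubring hmem
  have hint : IsIntegral O.toSubring (jd N (d * q) hdq) := by
    refine ⟨(Fermat.Agent.S28lib.phiZ q).map φ, (Fermat.Agent.S28lib.phiZ_monic q).map φ, ?_⟩
    rw [Polynomial.eval₂_map]
    exact biEval₂_jd_mul N q d hd hdq
  have : IsIntegrallyClosedIn O.toSubring (FBar N) := inferInstanceAs (IsIntegrallyClosedIn O _)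
  exact Subring.isIntegrallyClosedIn_iff.mp this hint

/-- `j(t^q) ∈ regAway j` -/
theorem jd_mem_regAway_q (hq : q ∣ N) : jd N q hq ∈ regAway Qb (Gin0.jF N) := by
  intro w hw
  rw [jF_eq_jd] at hw
  have h := jd_mul_mem_of_jd_mem N q 1 (one_dvd N) (by rw [one_mul]; exact hq) w hw
  rwa [jd_congr N (one_mul q) (by rw [one_mul]; exact hq) hq] at h

/-- `j(t^(q²)) ∈ regAway j` -/
theorem jd_mem_regAway_qq (hq : q ∣ N) (hqq : q * q ∣ N) :
    jd N (q * q) hqq ∈ regAway Qb (Gin0.jF N) := by
  intro w hw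
  exact jd_mul_mem_of_jd_mem N q q hq hqq w (jd_mem_regAway_q N q hq w hw)

end Modular

section Top

variable (M q : ℕ) [NeZero M] [NeZero q] [Fact q.Prime]

theorem xTop_eq_jF : xTop M q = Gin0.jF (M * q * q) := (jF_eq_jd (M * q * q)).symm

theorem yTop_mem_regAway : yTop M q ∈ regAway Qb (Gin0.jF (M * q * q)) :=
  jd_mem_regAway_qq (M * q * q) q (Dvd.intro_left (M * q) rfl)
    (Dvd.intro_left M (Nat.mul_assoc M q q).symm)

theorem xTop_mem_regAway : xTop M q ∈ regAway Qb (Gin0.jF (M * q * q)) := by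
  rw [xTop_eq_jF]
  exact Fermat.Agent.LSb.Unit.self_mem_regAway _

/-- **`ϖ = j(t^(q²)) − j(t)` is regular off the cusps** -/
theorem yTop_sub_xTop_mem_regAway :
    yTop M q - xTop M q ∈ regAway Qb (Gin0.jF (M * q * q)) :=
  (regAway Qb (Gin0.jF (M * q * q))).sub_mem (yTop_mem_regAway M q) (xTop_mem_regAway M q)

/-- **a pole of `ϖ` is a pole of `j`** -/
theorem poles_yTop_sub_xTop (v : AlgebraicCurve.Place Qb (FBar (M * q * q)))
    (hv : v.ord (yTop M q - xTop M q) < 0) : v.ord (xTop M q) < 0 := by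
  by_contra h
  rw [not_lt, ← FF.mem_iff_ord_nonneg] at h
  rw [xTop_eq_jF] at h
  have := yTop_sub_xTop_mem_regAway M q v h
  rw [FF.mem_iff_ord_nonneg] at this
  exact absurd hv (not_lt.mpr this)

end Top

/-! ### the `K`-rational form: the hypothesis `hpoles` of `HasCharts.unif_mem_chart` -/

section Fixed

variable (M q : ℕ) [NeZero M] [NeZero q] [Fact q.Prime]
local notation "GQ" => (AlgebraicClosure ℚ ≃ₐ[ℚ] AlgebraicClosure ℚ)

/-- a pole of `ϖ = yTopFix − xTopFix` lies in the support of `(j)_∞` -/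
theorem mem_support_polesOf_of_ord_unif_neg (H : Subgroup GQ)
    (v : AlgebraicCurve.Place Qb (FB (M * q * q)))
    (hv : v.ord (((yTopFix M q H - xTopFix M q H : fixF (M * q * q) H)) : FB (M * q * q)) < 0) :
    haveI := hasPrincipalDivisors_FB (M * q * q)
    v ∈ (polesOf (K := Qb) ((xTopFix M q H : fixF (M * q * q) H) : FB (M * q * q))).support := by
  have := hasPrincipalDivisors_FB (M * q * q)
  have h : v.ord (xTop M q) < 0 := poles_yTop_sub_xTop M q v hv
  rw [Finsupp.mem_support_iff, polesOf_apply]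
  show max (-v.ord (xTop M q)) 0 ≠ 0
  have : 0 < -v.ord (xTop M q) := by linarith
  rw [max_eq_left this.le]
  exact this.ne'

/-- `ϖ ∈ regAway j` in the fixed field -/
theorem coe_unif_mem_regAway (H : Subgroup GQ) :
    (((yTopFix M q H - xTopFix M q H : fixF (M * q * q) H)) : FB (M * q * q)) ∈
      regAway Qb (Gin0.jF (M * q * q)) :=
  yTop_sub_xTop_mem_regAway M q

end Fixed

end Fermat.Agent.S36lib.Eis
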