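/-
S36lib / Eis / DegRegular  (helper2)

**The degeneracy maps preserve regularity off the cusps.**

* `map_mem_regAway` (generic): `f ∈ regAway K y ⟹ φ f ∈ regAway K (φ y)` for an integral
  `K`-algebra homomorphism `φ` of function fields (restriction of places);
* `heckeAlphaBar_mem_regAway`, `heckeBetaBar_mem_regAway` : `f ∈ regAway ℚ̄ j_N ⟹ α f, β f ∈
  regAway ℚ̄ j_{N q}`;
* fixed-field forms for `alphaFixM`, `betaFixM` (helper8), `alphaFix`, `betaFix` (helper7);
* for a level `M` function `τ` regular off the cusps: `τ₀ = α α τ`, `τ₂ = β β τ`, `σ = α β τ` are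
  regular off the cusps at level `M q²`; `poles_unifOf` : a pole of `ϖ_τ = τ₂ − τ₀` is a pole of `j`
  (the hypothesis `hpoles` of helper3's `HasCharts.unif_mem_chart`).
-/
import Mathlib
import Fermat.Agent.S36lib.Eis.UnifChart
import Fermat.Agent.S36lib.Mid.FixDegree

set_option autoImplicit false
set_option linter.unusedSectionVars false
set_option linter.unusedVariables false

noncomputable section

namespace Fermat.Agent.S36lib.Eis

open ModularCurve AlgebraicCurve Polynomial Fermat.Agent.S18lib Fermat.Agent.S29lib.GH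
open Fermat.Agent.LSb.Val Fermat.Agent.S37lib.ConjNorm
open Fermat.Agent.LSb.Unit (regAway mem_regAway)
open Fermat.Agent.S36lib.Norm Fermat.Agent.ProgramR Fermat.Agent.S37lib.HeckeInst
open Fermat.Agent.S36lib.Desc2 Fermat.Agent.S36lib.Mid

local notation "Qb" => AlgebraicClosure ℚ
local notation "GQ" => (AlgebraicClosure ℚ ≃ₐ[ℚ] AlgebraicClosure ℚ)

section Generic

variable {K F F' : Type*} [Field K] [Field F] [Field F'] [Algebra K F] [Algebra K F']

/-- **an integral homomorphism of function fields preserves regularity away from the poles** -/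
theorem map_mem_regAway (φ : F →ₐ[K] F') (hφ : φ.toRingHom.IsIntegral) {y f : F}
    (hf : f ∈ regAway K y) : φ f ∈ regAway K (φ y) := by
  intro w hw
  exact hf (w.restrictAlong φ hφ) hw

end Generic

section Modular

variable (N q : ℕ) [NeZero N] [NeZero q] [Fact q.Prime]

/-- `α` preserves regularity off the cusps -/
theorem heckeAlphaBar_mem_regAway {f : FBar N} (hf : f ∈ regAway Qb (Gin0.jF N)) :
    heckeAlphaBar Qb N q f ∈ regAway Qb (Gin0.jF (N * q)) := by
  have h := map_mem_regAway (heckeAlphaBar Qb N q) (heckeAlphaBarIntegral N q) hf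
  rwa [heckeAlphaBar_jF] at h

/-- `β` preserves regularity off the cusps -/
theorem heckeBetaBar_mem_regAway {f : FBar N} (hf : f ∈ regAway Qb (Gin0.jF N)) :
    heckeBetaBar Qb N q f ∈ regAway Qb (Gin0.jF (N * q)) := by
  have h := map_mem_regAway (heckeBetaBar Qb N q) (heckeBetaBarIntegral N q) hf
  rw [heckeBetaBar_jF] at h
  intro w hw
  exact h w (jd_mem_regAway_q (N * q) q (Dvd.intro_left N rfl) w hw)

end Modular

section Fixed

variable (M q : ℕ) [NeZero M] [NeZero q] [Fact q.Prime] (H : Subgroup GQ)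

theorem coe_alphaFixM_mem_regAway {τ : fixF M H}
    (hτ : (τ : FB M) ∈ regAway Qb (Gin0.jF M)) :
    ((alphaFixM M q H τ : fixF (M * q) H) : FB (M * q)) ∈ regAway Qb (Gin0.jF (M * q)) :=
  heckeAlphaBar_mem_regAway M q hτ

theorem coe_betaFixM_mem_regAway {τ : fixF M H}
    (hτ : (τ : FB M) ∈ regAway Qb (Gin0.jF M)) :
    ((betaFixM M q H τ : fixF (M * q) H) : FB (M * q)) ∈ regAway Qb (Gin0.jF (M * q)) :=
  heckeBetaBar_mem_regAway M q hτ

theorem coe_alphaFix_mem_regAway {g : fixF (M * q) H}
    (hg : (g : FB (M * q)) ∈ regAway Qb (Gin0.jF (M * q))) :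
    ((alphaFix M q H g : fixF (M * q * q) H) : FB (M * q * q)) ∈
      regAway Qb (Gin0.jF (M * q * q)) :=
  heckeAlphaBar_mem_regAway (M * q) q hg

theorem coe_betaFix_mem_regAway {g : fixF (M * q) H}
    (hg : (g : FB (M * q)) ∈ regAway Qb (Gin0.jF (M * q))) :
    ((betaFix M q H g : fixF (M * q * q) H) : FB (M * q * q)) ∈
      regAway Qb (Gin0.jF (M * q * q)) :=
  heckeBetaBar_mem_regAway (M * q) q hg

variable {M q H}
variable {τ : fixF M H} (hτ : (τ : FB M) ∈ regAway Qb (Gin0.jF M))

include hτ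

/-- `τ₀ = α α τ` is regular off the cusps -/
theorem coe_alpha_alpha_mem_regAway :
    ((alphaFix M q H (alphaFixM M q H τ) : fixF (M * q * q) H) : FB (M * q * q)) ∈
      regAway Qb (Gin0.jF (M * q * q)) :=
  coe_alphaFix_mem_regAway M q H (coe_alphaFixM_mem_regAway M q H hτ)

/-- `τ₂ = β β τ` is regular off the cusps -/
theorem coe_beta_beta_mem_regAway :
    ((betaFix M q H (betaFixM M q H τ) : fixF (M * q * q) H) : FB (M * q * q)) ∈
      regAway Qb (Gin0.jF (M * q * q)) :=
  coe_betaFix_mem_regAway M q H (coe_betaFixM_mem_regAway M q H hτ)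

/-- `σ = α β τ` is regular off the cusps -/
theorem coe_alpha_beta_mem_regAway :
    ((alphaFix M q H (betaFixM M q H τ) : fixF (M * q * q) H) : FB (M * q * q)) ∈
      regAway Qb (Gin0.jF (M * q * q)) :=
  coe_alphaFix_mem_regAway M q H (coe_betaFixM_mem_regAway M q H hτ)

/-- `β α τ` is regular off the cusps -/
theorem coe_beta_alpha_mem_regAway :
    ((betaFix M q H (alphaFixM M q H τ) : fixF (M * q * q) H) : FB (M * q * q)) ∈
      regAway Qb (Gin0.jF (M * q * q)) :=
  coe_betaFix_mem_regAway M q H (coe_alphaFixM_mem_regAway M q H hτ)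

/-- **`ϖ_τ = β β τ − α α τ` is regular off the cusps** -/
theorem coe_unifOf_mem_regAway :
    ((betaFix M q H (betaFixM M q H τ) - alphaFix M q H (alphaFixM M q H τ) :
        fixF (M * q * q) H) : FB (M * q * q)) ∈ regAway Qb (Gin0.jF (M * q * q)) :=
  (regAway Qb (Gin0.jF (M * q * q))).sub_mem (coe_beta_beta_mem_regAway hτ)
    (coe_alpha_alpha_mem_regAway hτ)

omit hτ in
/-- a pole of a function regular off the cusps lies in the support of `(j)_∞` -/
theorem mem_support_polesOf_xTopFix_of_mem_regAway {f : FB (M * q * q)}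
    (hf : f ∈ regAway Qb (Gin0.jF (M * q * q))) (v : AlgebraicCurve.Place Qb (FB (M * q * q)))
    (hv : v.ord f < 0) :
    haveI := hasPrincipalDivisors_FB (M * q * q)
    v ∈ (polesOf (K := Qb) ((xTopFix M q H : fixF (M * q * q) H) : FB (M * q * q))).support := by
  have := hasPrincipalDivisors_FB (M * q * q)
  have h : v.ord (xTop M q) < 0 := by
    by_contra h
    rw [not_lt, ← FF.mem_iff_ord_nonneg, xTop_eq_jF] at h
    have h2 := hf v h
    rw [FF.mem_iff_ord_nonneg] at h2
    exact absurd hv (not_lt.mpr h2)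
  rw [Finsupp.mem_support_iff, polesOf_apply]
  show max (-v.ord (xTop M q)) 0 ≠ 0
  have h3 : 0 < -v.ord (xTop M q) := by linarith
  rw [max_eq_left h3.le]
  exact h3.ne'

/-- **a pole of `ϖ_τ` lies in the support of `(j)_∞`** (`hpoles` of `HasCharts.unif_mem_chart`) -/
theorem poles_unifOf (v : AlgebraicCurve.Place Qb (FB (M * q * q)))
    (hv : v.ord ((betaFix M q H (betaFixM M q H τ) - alphaFix M q H (alphaFixM M q H τ) :
        fixF (M * q * q) H) : FB (M * q * q)) < 0) :
    haveI := hasPrincipalDivisors_FB (M * q * q)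
    v ∈ (polesOf (K := Qb) ((xTopFix M q H : fixF (M * q * q) H) : FB (M * q * q))).support :=
  mem_support_polesOf_xTopFix_of_mem_regAway (coe_unifOf_mem_regAway hτ) v hv

end Fixed

end Fermat.Agent.S36lib.Eis
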