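/-
S36lib / Eis / Local  (helper2)

**Abstract Eisenstein localisation** (brick B3, the valuation `v_b = v₁₁` of the thick fibre).

`R` a discrete valuation ring with uniformizer `π` and residue field `k`, `F ⊇ R` a field, `ϖ ∈ F`
a root of a monic `Q = X^(e+1) + a_e X^e + ⋯ + a_0 ∈ R[X]` with `a_e ∈ Rˣ`, `π ∣ a_i` (`i < e`),
`a_0 = π · unit`, `ϖ ∉ R`, and `F = Frac(R)(ϖ)`.  Then the localisation of `R[ϖ]` at `(π, ϖ)` is a
discrete valuation ring `O ⊆ F` with uniformizer `ϖ`, `ϖ ^ e = π · unit`, residue field `k`.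
-/
import Mathlib

set_option autoImplicit false
set_option linter.unusedSectionVars false
set_option linter.unusedVariables false

noncomputable section

namespace Fermat.Agent.S36lib.Eis

open Polynomial IsLocalRing

/-- the hypotheses of the Eisenstein localisation -/
structure EisData (R : Type*) [CommRing R] [IsDomain R] [IsDiscreteValuationRing R]
    (F : Type*) [Field F] [Algebra R F] where
  /-- uniformizer of the base -/
  π : R
  irr : Irreducible π
  /-- the new uniformizer -/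
  ϖ : F
  /-- the ramification index -/
  e : ℕ
  /-- the Eisenstein-type equation of `ϖ` -/
  Q : R[X]
  monic : Q.Monic
  natDegree_eq : Q.natDegree = e + 1
  root : aeval ϖ Q = 0
  lead : IsUnit (Q.coeff e)
  mid : ∀ i < e, π ∣ Q.coeff i
  const : ∃ u : Rˣ, Q.coeff 0 = π * u
  not_mem : ϖ ∉ Set.range (algebraMap R F)
  gen : ∀ f : F, ∃ r : R, r ≠ 0 ∧ algebraMap R F r * f ∈ Algebra.adjoin R {ϖ}

namespace EisData

variable {R : Type*} [CommRing R] [IsDomain R] [IsDiscreteValuationRing R]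
variable {F : Type*} [Field F] [Algebra R F] [FaithfulSMul R F]
variable (D : EisData R F)

theorem isIntegral : IsIntegral R D.ϖ := ⟨D.Q, D.monic, D.root⟩

theorem e_pos : 0 < D.e := by
  rcases Nat.eq_zero_or_pos D.e with h | h
  · exfalso
    obtain ⟨u, hu⟩ := D.const
    have h1 := D.lead
    rw [h, hu] at h1
    exact D.irr.not_isUnit (isUnit_of_mul_isUnit_left h1)
  · exact h

theorem pi_ne_zero : D.π ≠ 0 := D.irr.ne_zero

/-- reduction of `Q` modulo `π` -/
theorem map_residue_Q :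
    D.Q.map (residue R) = X ^ D.e * (X + C (residue R (D.Q.coeff D.e))) := by
  ext i
  rw [coeff_map, mul_add, ← pow_succ, coeff_add, coeff_X_pow, coeff_X_pow_mul', coeff_C]
  rcases lt_trichotomy i D.e with h | h | h
  · obtain ⟨c, hc⟩ := D.mid i h
    have h1 : ¬ i = D.e + 1 := by omega
    have h2 : ¬ D.e ≤ i := by omega
    rw [if_neg h1, if_neg h2, add_zero, hc, map_mul]
    have : residue R D.π = 0 := by
      rw [residue_eq_zero_iff]
      exact D.irr.not_isUnit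
    rw [this, zero_mul]
  · subst h
    have h1 : ¬ D.e = D.e + 1 := by omega
    rw [if_neg h1, if_pos le_rfl, if_pos (Nat.sub_self D.e), zero_add]
  · rcases Nat.lt_or_ge (D.e + 1) i with h' | h'
    · have h1 : ¬ i = D.e + 1 := by omega
      have h2 : D.e ≤ i := by omega
      have h3 : ¬ i - D.e = 0 := by omega
      rw [if_neg h1, if_pos h2, if_neg h3, add_zero,
        coeff_eq_zero_of_natDegree_lt (by rw [D.natDegree_eq]; exact h'), map_zero]
    · have hi : i = D.e + 1 := by omega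
      have h2 : D.e ≤ i := by omega
      have h3 : ¬ i - D.e = 0 := by omega
      rw [if_pos hi, if_pos h2, if_neg h3, add_zero]
      have := D.monic.coeff_natDegree
      rw [D.natDegree_eq] at this
      rw [hi, this, map_one]


/-- the minimal polynomial of `ϖ` over `R` -/
abbrev μ : R[X] := minpoly R D.ϖ

theorem μ_monic : D.μ.Monic := minpoly.monic D.isIntegral

theorem μ_dvd : D.μ ∣ D.Q := minpoly.isIntegrallyClosed_dvd D.isIntegral D.root

theorem residue_pi : residue R D.π = 0 := by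
  rw [residue_eq_zero_iff]
  exact D.irr.not_isUnit

theorem residue_eq_zero_iff_dvd (r : R) : residue R r = 0 ↔ D.π ∣ r := by
  rw [residue_eq_zero_iff, ← Ideal.mem_span_singleton,
    ← (IsDiscreteValuationRing.irreducible_iff_uniformizer D.π).mp D.irr]

/-- **non-degeneracy**: the constant coefficient of the minimal polynomial is divisible by `π` -/
theorem pi_dvd_μ_coeff_zero : D.π ∣ D.μ.coeff 0 := by
  rw [← D.residue_eq_zero_iff_dvd]
  by_contra h0
  set k := ResidueField R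
  set μb : k[X] := D.μ.map (residue R) with hμb
  have hdvd : μb ∣ X ^ D.e * (X + C (residue R (D.Q.coeff D.e))) := by
    rw [← D.map_residue_Q]
    exact Polynomial.map_dvd _ D.μ_dvd
  have hX : ¬ (X : k[X]) ∣ μb := by
    rw [X_dvd_iff, hμb, coeff_map]
    exact h0
  have hcop : IsCoprime (X ^ D.e : k[X]) μb :=
    ((irreducible_X.coprime_iff_not_dvd).mpr hX).pow_left
  have hdvd2 : μb ∣ X + C (residue R (D.Q.coeff D.e)) := hcop.symm.dvd_of_dvd_mul_left hdvd
  have hdeg : μb.natDegree ≤ 1 := by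
    have := natDegree_le_of_dvd hdvd2 (X_add_C_ne_zero _)
    rwa [natDegree_X_add_C] at this
  rw [hμb, D.μ_monic.natDegree_map] at hdeg
  have hpos : 0 < D.μ.natDegree := minpoly.natDegree_pos D.isIntegral
  have h1 : D.μ.natDegree = 1 := by omega
  exact D.not_mem ((minpoly.natDegree_eq_one_iff).mp h1)


/-- the ring `S = R[ϖ]` -/
abbrev S : Subalgebra R F := Algebra.adjoin R {D.ϖ}

/-- `ϖ` as an element of `S` -/
def ϖS : D.S := ⟨D.ϖ, Algebra.self_mem_adjoin_singleton R D.ϖ⟩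

@[simp] theorem coe_ϖS : (D.ϖS : F) = D.ϖ := rfl

/-- `R[X]/(μ) → k`, `X ↦ 0` -/
def φ₀ : AdjoinRoot D.μ →+* ResidueField R :=
  AdjoinRoot.lift (residue R) 0 (by
    rw [eval₂_at_zero, (D.residue_eq_zero_iff_dvd _).mpr D.pi_dvd_μ_coeff_zero])

/-- the reduction `S → k` with `ϖ ↦ 0` -/
def φ : D.S →+* ResidueField R :=
  D.φ₀.comp ((minpoly.equivAdjoin D.isIntegral).symm : D.S →+* AdjoinRoot D.μ)

theorem equivAdjoin_symm_ϖS :
    (minpoly.equivAdjoin D.isIntegral).symm D.ϖS = AdjoinRoot.root D.μ := by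
  rw [AlgEquiv.symm_apply_eq]
  apply Subtype.ext
  rw [minpoly.coe_equivAdjoin]
  exact (AdjoinRoot.Minpoly.coe_toAdjoin_mk_X (R := R) (x := D.ϖ)).symm

theorem φ_algebraMap (r : R) : D.φ (algebraMap R D.S r) = residue R r := by
  rw [φ, RingHom.comp_apply]
  show D.φ₀ ((minpoly.equivAdjoin D.isIntegral).symm (algebraMap R D.S r)) = _
  rw [AlgEquiv.commutes, φ₀, AdjoinRoot.algebraMap_eq, AdjoinRoot.lift_of]

theorem φ_ϖS : D.φ D.ϖS = 0 := by
  rw [φ, RingHom.comp_apply]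
  show D.φ₀ ((minpoly.equivAdjoin D.isIntegral).symm D.ϖS) = _
  rw [equivAdjoin_symm_ϖS, φ₀, AdjoinRoot.lift_root]

theorem φ_aeval (p : R[X]) : D.φ (aeval D.ϖS p) = residue R (p.coeff 0) := by
  have h : (D.φ.comp (aeval D.ϖS : R[X] →ₐ[R] D.S).toRingHom) =
      (Polynomial.eval₂RingHom (residue R) 0) := by
    refine Polynomial.ringHom_ext (fun r => ?_) ?_
    · simp only [AlgHom.toRingHom_eq_coe, RingHom.coe_comp, RingHom.coe_coe, Function.comp_apply,
        aeval_C, coe_eval₂RingHom, eval₂_C]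
      exact D.φ_algebraMap r
    · simp only [AlgHom.toRingHom_eq_coe, RingHom.coe_comp, RingHom.coe_coe, Function.comp_apply,
        aeval_X, coe_eval₂RingHom, eval₂_X]
      exact D.φ_ϖS
  have := congrArg (fun f => f p) h
  simp only [AlgHom.toRingHom_eq_coe, RingHom.coe_comp, RingHom.coe_coe, Function.comp_apply,
    coe_eval₂RingHom, eval₂_at_zero] at this
  exact this

theorem φ_surjective : Function.Surjective D.φ := by
  intro x
  obtain ⟨r, rfl⟩ := residue_surjective x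
  exact ⟨algebraMap R D.S r, D.φ_algebraMap r⟩

/-- every element of `S` is a polynomial in `ϖ` -/
theorem exists_aeval_eq (s : D.S) : ∃ p : R[X], aeval D.ϖS p = s := by
  obtain ⟨s, hs⟩ := s
  have hs' : s ∈ (aeval D.ϖ : R[X] →ₐ[R] F).range := by
    rw [← Algebra.adjoin_singleton_eq_range_aeval]
    exact hs
  obtain ⟨p, hp⟩ := hs'
  refine ⟨p, Subtype.ext ?_⟩
  show ((aeval D.ϖS p : D.S) : F) = s
  rw [← hp, ← D.coe_ϖS]
  exact (aeval_algebraMap_apply F D.ϖS p).symm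


/-- the maximal ideal `(π, ϖ)` of `S` -/
def 𝔪 : Ideal D.S := RingHom.ker D.φ

instance instIsMaximal𝔪 : D.𝔪.IsMaximal := RingHom.ker_isMaximal_of_surjective D.φ D.φ_surjective

theorem mem_𝔪_iff (s : D.S) : s ∈ D.𝔪 ↔ D.φ s = 0 := RingHom.mem_ker

theorem ϖS_mem : D.ϖS ∈ D.𝔪 := (D.mem_𝔪_iff _).mpr D.φ_ϖS

theorem pi_mem : algebraMap R D.S D.π ∈ D.𝔪 := by
  rw [D.mem_𝔪_iff, D.φ_algebraMap, D.residue_pi]

/-- `𝔪 ⊆ (π, ϖ)` -/
theorem 𝔪_le : D.𝔪 ≤ Ideal.span {algebraMap R D.S D.π, D.ϖS} := by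
  intro s hs
  obtain ⟨p, rfl⟩ := D.exists_aeval_eq s
  rw [D.mem_𝔪_iff, D.φ_aeval, D.residue_eq_zero_iff_dvd] at hs
  obtain ⟨c, hc⟩ := hs
  have hp : p = p.divX * X + C (p.coeff 0) := (divX_mul_X_add p).symm
  rw [hp, map_add, map_mul, aeval_X, aeval_C, hc, map_mul]
  refine Ideal.add_mem _ (Ideal.mul_mem_left _ _ (Ideal.subset_span ?_))
    (Ideal.mul_mem_right _ _ (Ideal.subset_span ?_))
  · simp
  · simp

/-- the Eisenstein shape of `Q` -/
theorem exists_B : ∃ B : R[X], D.Q = X ^ D.e * (X + C (D.Q.coeff D.e)) + C D.π * B ∧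
    IsUnit (B.coeff 0) := by
  have h1 : C D.π ∣ D.Q - X ^ D.e * (X + C (D.Q.coeff D.e)) := by
    rw [C_dvd_iff_dvd_coeff]
    intro i
    rw [← D.residue_eq_zero_iff_dvd, ← coeff_map, Polynomial.map_sub, D.map_residue_Q,
      Polynomial.map_mul, Polynomial.map_pow, Polynomial.map_add, map_X, map_C, sub_self, coeff_zero]
  obtain ⟨B, hB⟩ := h1
  refine ⟨B, by rw [← hB]; ring, ?_⟩
  obtain ⟨u, hu⟩ := D.const
  have h2 := congrArg (fun p => p.coeff 0) hB
  simp only [coeff_sub, coeff_C_mul] at h2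
  rw [coeff_X_pow_mul', if_neg (by have := D.e_pos; omega), sub_zero, hu] at h2
  have h3 : B.coeff 0 = u := (mul_left_cancel₀ D.pi_ne_zero h2).symm
  rw [h3]
  exact u.isUnit

/-- the key relation in `S`: `ϖ^e (ϖ + a_e) = - π w` with `w ∉ 𝔪`, `ϖ + a_e ∉ 𝔪` -/
theorem exists_key : ∃ w : D.S, w ∉ D.𝔪 ∧ (D.ϖS + algebraMap R D.S (D.Q.coeff D.e)) ∉ D.𝔪 ∧
    D.ϖS ^ D.e * (D.ϖS + algebraMap R D.S (D.Q.coeff D.e)) = - (algebraMap R D.S D.π * w) := by
  obtain ⟨B, hB, hu⟩ := D.exists_B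
  refine ⟨aeval D.ϖS B, ?_, ?_, ?_⟩
  · rw [D.mem_𝔪_iff, D.φ_aeval, residue_eq_zero_iff]
    exact fun h => h hu
  · rw [D.mem_𝔪_iff, map_add, D.φ_ϖS, zero_add, D.φ_algebraMap, residue_eq_zero_iff]
    exact fun h => h D.lead
  · have h0 : aeval D.ϖS D.Q = 0 := by
      apply Subtype.ext
      show ((aeval D.ϖS D.Q : D.S) : F) = 0
      rw [← D.root, ← D.coe_ϖS]
      exact (aeval_algebraMap_apply F D.ϖS D.Q).symm
    rw [hB, map_add, map_mul, map_mul, map_pow, map_add, aeval_X, aeval_C, aeval_C] at h0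
    exact eq_neg_of_add_eq_zero_left h0


theorem isNoetherianRing_S : IsNoetherianRing D.S := by
  have hfg : (Subalgebra.toSubmodule D.S).FG := D.isIntegral.fg_adjoin_singleton
  have : Module.Finite R D.S := (Module.Finite.iff_fg (N := Subalgebra.toSubmodule D.S)).mpr hfg
  have : IsNoetherian R D.S := isNoetherian_of_isNoetherianRing_of_finite R D.S
  exact isNoetherian_of_tower R inferInstance

/-- the local ring `T = S_𝔪` -/
abbrev T : Type _ := Localization.AtPrime D.𝔪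

instance instIsNoetherianRingT : IsNoetherianRing D.T :=
  IsLocalization.isNoetherianRing D.𝔪.primeCompl D.T D.isNoetherianRing_S

instance instIsDomainT : IsDomain D.T :=
  IsLocalization.isDomain_localization (Ideal.primeCompl_le_nonZeroDivisors D.𝔪)

/-- `ϖ` in `T` -/
def ϖT : D.T := algebraMap D.S D.T D.ϖS

/-- `π` in `T` -/
def πT : D.T := algebraMap D.S D.T (algebraMap R D.S D.π)

theorem algebraMap_ST_injective : Function.Injective (algebraMap D.S D.T) :=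
  IsLocalization.injective D.T (Ideal.primeCompl_le_nonZeroDivisors D.𝔪)

theorem isUnit_of_not_mem {s : D.S} (hs : s ∉ D.𝔪) : IsUnit (algebraMap D.S D.T s) :=
  IsLocalization.map_units D.T (⟨s, hs⟩ : D.𝔪.primeCompl)

/-- `ϖ^e = π · unit` in `T` -/
theorem exists_unit_T : ∃ u : D.Tˣ, D.ϖT ^ D.e = D.πT * u := by
  obtain ⟨w, hw, ha, hkey⟩ := D.exists_key
  obtain ⟨uw, huw⟩ := D.isUnit_of_not_mem hw
  obtain ⟨ua, hua⟩ := D.isUnit_of_not_mem ha
  refine ⟨-(uw * ua⁻¹), ?_⟩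
  have h := congrArg (algebraMap D.S D.T) hkey
  rw [map_mul, map_pow, map_neg, map_mul, ← hua, ← huw] at h
  show D.ϖT ^ D.e = D.πT * ((-(uw * ua⁻¹) : D.Tˣ) : D.T)
  rw [Units.val_neg, Units.val_mul, ϖT, πT]
  calc (algebraMap D.S D.T D.ϖS) ^ D.e
      = (algebraMap D.S D.T D.ϖS) ^ D.e * (ua : D.T) * ((ua⁻¹ : D.Tˣ) : D.T) := by
        rw [mul_assoc, Units.mul_inv, mul_one]
    _ = _ := by rw [h]; ring

theorem ϖT_ne_zero : D.ϖT ≠ 0 := by
  intro h
  have h1 : D.ϖS = 0 := D.algebraMap_ST_injective (by rw [map_zero]; exact h)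
  apply D.not_mem
  refine ⟨0, ?_⟩
  rw [map_zero, ← D.coe_ϖS, h1]
  rfl

theorem ϖT_mem_maximalIdeal : D.ϖT ∈ maximalIdeal D.T := by
  rw [← Localization.AtPrime.map_eq_maximalIdeal]
  exact Ideal.mem_map_of_mem _ D.ϖS_mem

theorem maximalIdeal_T : maximalIdeal D.T = Ideal.span {D.ϖT} := by
  apply le_antisymm
  · rw [← Localization.AtPrime.map_eq_maximalIdeal, Ideal.map_le_iff_le_comap]
    refine D.𝔪_le.trans ?_
    rw [Ideal.span_le]
    intro s hs
    rcases hs with rfl | hs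
    · show algebraMap D.S D.T _ ∈ Ideal.span {D.ϖT}
      obtain ⟨u, hu⟩ := D.exists_unit_T
      have h1 : D.πT = D.ϖT ^ D.e * ((u⁻¹ : D.Tˣ) : D.T) := by
        rw [hu, mul_assoc, Units.mul_inv, mul_one]
      show D.πT ∈ _
      rw [h1, Ideal.mem_span_singleton]
      exact Dvd.dvd.mul_right (dvd_pow_self _ D.e_pos.ne') _
    · rw [Set.mem_singleton_iff] at hs
      subst hs
      exact Ideal.subset_span rfl
  · rw [Ideal.span_le]
    intro t ht
    rw [Set.mem_singleton_iff] at ht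
    subst ht
    exact D.ϖT_mem_maximalIdeal

theorem not_isField_T : ¬ IsField D.T := by
  rw [IsLocalRing.isField_iff_maximalIdeal_eq]
  intro h
  have := D.ϖT_mem_maximalIdeal
  rw [h] at this
  exact D.ϖT_ne_zero this

instance instDVRT : IsDiscreteValuationRing D.T :=
  ((IsDiscreteValuationRing.TFAE D.T D.not_isField_T).out 4 0).mp
    (show (maximalIdeal D.T).IsPrincipal from ⟨⟨D.ϖT, by rw [D.maximalIdeal_T]⟩⟩)

theorem irreducible_ϖT : Irreducible D.ϖT :=
  (IsDiscreteValuationRing.irreducible_iff_uniformizer D.ϖT).mpr D.maximalIdeal_T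


/-! ### the embedding into `F` and the valuation ring -/

/-- the embedding `T → F` -/
def ι : D.T →+* F :=
  IsLocalization.lift (M := D.𝔪.primeCompl) (g := (D.S.val : D.S →+* F)) (by
    intro y
    have h : (y : D.S) ≠ 0 := fun h => y.2 (by rw [h]; exact D.𝔪.zero_mem)
    have h' : ((y : D.S) : F) ≠ 0 := fun h0 => h (Subtype.ext h0)
    exact IsUnit.mk0 _ h')

theorem ι_algebraMap (s : D.S) : D.ι (algebraMap D.S D.T s) = (s : F) :=
  IsLocalization.lift_eq _ s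

theorem ι_injective : Function.Injective D.ι := by
  rw [ι, IsLocalization.lift_injective_iff]
  intro x y
  constructor
  · intro h
    rw [D.algebraMap_ST_injective h]
  · intro h
    have : x = y := Subtype.ext h
    rw [this]

theorem ι_ϖT : D.ι D.ϖT = D.ϖ := D.ι_algebraMap D.ϖS

theorem ι_πT : D.ι D.πT = algebraMap R F D.π := D.ι_algebraMap _

theorem ι_algebraMap_R (r : R) : D.ι (algebraMap D.S D.T (algebraMap R D.S r)) = algebraMap R F r :=
  D.ι_algebraMap _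

omit [IsDomain R] [IsDiscreteValuationRing R] in
theorem algebraMap_RF_ne_zero {r : R} (hr : r ≠ 0) : algebraMap R F r ≠ 0 := by
  intro h
  exact hr (FaithfulSMul.algebraMap_injective R F (by rw [h, map_zero]))

/-- every nonzero element of `F` is `ϖ^n · unit` -/
theorem exists_zpow_mul_unit_T {f : F} (hf : f ≠ 0) :
    ∃ (n : ℤ) (u : D.Tˣ), f = D.ϖ ^ n * D.ι u := by
  obtain ⟨r, hr, hs⟩ := D.gen f
  have hrF : algebraMap R F r ≠ 0 := algebraMap_RF_ne_zero hr
  set s : D.S := ⟨_, hs⟩ with hs_def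
  have hs0 : algebraMap D.S D.T s ≠ 0 := by
    intro h
    have h1 : s = 0 := D.algebraMap_ST_injective (by rw [map_zero]; exact h)
    have h2 : algebraMap R F r * f = 0 := congrArg Subtype.val h1
    exact mul_ne_zero hrF hf h2
  have hr0 : algebraMap D.S D.T (algebraMap R D.S r) ≠ 0 := by
    intro h
    have h1 : algebraMap R D.S r = 0 := D.algebraMap_ST_injective (by rw [map_zero]; exact h)
    have h2 : algebraMap R F r = 0 := congrArg Subtype.val h1
    exact hrF h2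
  obtain ⟨a, u, hu⟩ := IsDiscreteValuationRing.eq_unit_mul_pow_irreducible hs0 D.irreducible_ϖT
  obtain ⟨b, u', hu'⟩ := IsDiscreteValuationRing.eq_unit_mul_pow_irreducible hr0 D.irreducible_ϖT
  refine ⟨(a : ℤ) - b, u * u'⁻¹, ?_⟩
  have h1 : algebraMap R F r * f = D.ι u * D.ϖ ^ a := by
    have := congrArg D.ι hu
    rw [D.ι_algebraMap, map_mul, map_pow, D.ι_ϖT] at this
    exact this
  have h2 : algebraMap R F r = D.ι u' * D.ϖ ^ b := by
    have := congrArg D.ι hu'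
    rw [D.ι_algebraMap_R, map_mul, map_pow, D.ι_ϖT] at this
    exact this
  have hϖ : D.ϖ ≠ 0 := by
    intro h
    exact D.ϖT_ne_zero (D.ι_injective (by rw [D.ι_ϖT, map_zero, h]))
  have hu'0 : D.ι u' ≠ 0 := by
    intro h
    exact u'.ne_zero (D.ι_injective (by rw [h, map_zero]))
  have hinv : D.ι ((u'⁻¹ : D.Tˣ) : D.T) = (D.ι u')⁻¹ := by
    apply eq_inv_of_mul_eq_one_left
    rw [← map_mul, Units.inv_mul, map_one]
  rw [Units.val_mul, map_mul, hinv, zpow_sub₀ hϖ, zpow_natCast, zpow_natCast]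
  have h3 : f = (algebraMap R F r)⁻¹ * (algebraMap R F r * f) := by
    rw [← mul_assoc, inv_mul_cancel₀ hrF, one_mul]
  rw [h3, h1, h2]
  field_simp

/-- the valuation ring `O_b ⊆ F` -/
def O : ValuationSubring F where
  toSubring := D.ι.range
  mem_or_inv_mem' := by
    intro f
    by_cases hf : f = 0
    · left
      rw [hf]
      exact Subring.zero_mem _
    · obtain ⟨n, u, hu⟩ := D.exists_zpow_mul_unit_T hf
      rcases le_total 0 n with hn | hn
      · left
        obtain ⟨m, rfl⟩ := Int.eq_ofNat_of_zero_le hn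
        refine ⟨D.ϖT ^ m * u, ?_⟩
        rw [map_mul, map_pow, D.ι_ϖT, hu, zpow_natCast]
      · right
        obtain ⟨m, hm⟩ := Int.eq_ofNat_of_zero_le (neg_nonneg.mpr hn)
        refine ⟨D.ϖT ^ m * ((u⁻¹ : D.Tˣ) : D.T), ?_⟩
        have hinv : D.ι ((u⁻¹ : D.Tˣ) : D.T) = (D.ι u)⁻¹ := by
          apply eq_inv_of_mul_eq_one_left
          rw [← map_mul, Units.inv_mul, map_one]
        rw [map_mul, map_pow, D.ι_ϖT, hinv, hu, mul_inv, ← zpow_neg, hm, zpow_natCast]

theorem mem_O_iff {f : F} : f ∈ D.O ↔ ∃ t : D.T, D.ι t = f := Iff.rfl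


/-- `T ≃ O` -/
def τ : D.T ≃+* D.O :=
  RingEquiv.ofBijective (D.ι.codRestrict D.O (fun t => ⟨t, rfl⟩))
    ⟨fun x y h => D.ι_injective (congrArg Subtype.val h),
      fun ⟨f, t, ht⟩ => ⟨t, Subtype.ext ht⟩⟩

@[simp] theorem coe_τ (t : D.T) : ((D.τ t : D.O) : F) = D.ι t := rfl

theorem ι_τ_symm (x : D.O) : D.ι (D.τ.symm x) = (x : F) := by
  rw [← D.coe_τ, RingEquiv.apply_symm_apply]

/-- the reduction `T → k` -/
def redT : D.T →+* ResidueField R :=
  IsLocalization.lift (M := D.𝔪.primeCompl) (g := D.φ) (by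
    intro y
    have h : D.φ y ≠ 0 := fun h => y.2 ((D.mem_𝔪_iff _).mpr h)
    exact IsUnit.mk0 _ h)

theorem redT_algebraMap (s : D.S) : D.redT (algebraMap D.S D.T s) = D.φ s :=
  IsLocalization.lift_eq _ s

theorem redT_surjective : Function.Surjective D.redT := fun x => by
  obtain ⟨s, rfl⟩ := D.φ_surjective x
  exact ⟨_, D.redT_algebraMap s⟩

theorem redT_eq_zero_iff (t : D.T) : D.redT t = 0 ↔ D.ϖT ∣ t := by
  have h1 : RingHom.ker D.redT = maximalIdeal D.T :=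
    IsLocalRing.eq_maximalIdeal (RingHom.ker_isMaximal_of_surjective _ D.redT_surjective)
  rw [← RingHom.mem_ker, h1, D.maximalIdeal_T, Ideal.mem_span_singleton]

/-- the reduction map of `O_b`, onto the residue field of `R` -/
def red : D.O →+* ResidueField R := D.redT.comp (D.τ.symm : D.O →+* D.T)

theorem algebraMap_mem (r : R) : algebraMap R F r ∈ D.O :=
  ⟨_, D.ι_algebraMap_R r⟩

theorem ϖ_mem : D.ϖ ∈ D.O := ⟨_, D.ι_ϖT⟩

theorem τ_symm_algebraMap (r : R) :
    D.τ.symm ⟨algebraMap R F r, D.algebraMap_mem r⟩ =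
      algebraMap D.S D.T (algebraMap R D.S r) := by
  rw [RingEquiv.symm_apply_eq]
  exact Subtype.ext (D.ι_algebraMap_R r).symm

theorem τ_symm_ϖ : D.τ.symm ⟨D.ϖ, D.ϖ_mem⟩ = D.ϖT := by
  rw [RingEquiv.symm_apply_eq]
  exact Subtype.ext D.ι_ϖT.symm

theorem red_surjective : Function.Surjective D.red := by
  intro x
  obtain ⟨t, rfl⟩ := D.redT_surjective x
  exact ⟨D.τ t, by rw [red, RingHom.comp_apply]; simp⟩

theorem red_algebraMap (r : R) :
    D.red ⟨algebraMap R F r, D.algebraMap_mem r⟩ = residue R r := by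
  rw [red, RingHom.comp_apply]
  show D.redT (D.τ.symm _) = _
  rw [D.τ_symm_algebraMap, D.redT_algebraMap, D.φ_algebraMap]

theorem red_ϖ : D.red ⟨D.ϖ, D.ϖ_mem⟩ = 0 := by
  rw [red, RingHom.comp_apply]
  show D.redT (D.τ.symm _) = _
  rw [D.τ_symm_ϖ, D.redT_eq_zero_iff]

/-- the kernel of the reduction is `ϖ O_b` -/
theorem red_eq_zero_iff (x : D.O) : D.red x = 0 ↔ ∃ y : D.O, (x : F) = D.ϖ * (y : F) := by
  rw [red, RingHom.comp_apply]
  show D.redT (D.τ.symm x) = 0 ↔ _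
  rw [D.redT_eq_zero_iff]
  constructor
  · rintro ⟨c, hc⟩
    refine ⟨D.τ c, ?_⟩
    rw [← D.ι_τ_symm x, hc, map_mul, D.ι_ϖT, D.coe_τ]
  · rintro ⟨y, hy⟩
    refine ⟨D.τ.symm y, ?_⟩
    apply D.ι_injective
    rw [map_mul, D.ι_τ_symm, D.ι_τ_symm, D.ι_ϖT, hy]

/-- units of `T` give units of `O_b` -/
def unitO (u : D.Tˣ) : D.Oˣ := Units.map (D.τ : D.T →* D.O) u

@[simp] theorem coe_unitO (u : D.Tˣ) : (((D.unitO u : D.Oˣ) : D.O) : F) = D.ι u := rfl

/-- **every nonzero element of `F` is `ϖ^n · unit`** -/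
theorem exists_zpow_mul_unit {f : F} (hf : f ≠ 0) :
    ∃ (n : ℤ) (u : D.Oˣ), f = D.ϖ ^ n * ((u : D.O) : F) := by
  obtain ⟨n, u, hu⟩ := D.exists_zpow_mul_unit_T hf
  exact ⟨n, D.unitO u, hu⟩

/-- **`ϖ^e = π · unit`** -/
theorem exists_unit : ∃ u : D.Oˣ, D.ϖ ^ D.e = algebraMap R F D.π * ((u : D.O) : F) := by
  obtain ⟨u, hu⟩ := D.exists_unit_T
  refine ⟨D.unitO u, ?_⟩
  have := congrArg D.ι hu
  rw [map_pow, map_mul, D.ι_ϖT, D.ι_πT] at this
  exact this

theorem ϖ_ne_zero : D.ϖ ≠ 0 := by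
  intro h
  exact D.ϖT_ne_zero (D.ι_injective (by rw [D.ι_ϖT, map_zero, h]))

/-- `ϖ` is not a unit of `O_b` -/
theorem ϖ_inv_not_mem : D.ϖ⁻¹ ∉ D.O := by
  rintro ⟨t, ht⟩
  have h1 : D.ϖT * t = 1 := by
    apply D.ι_injective
    rw [map_mul, D.ι_ϖT, ht, map_one, mul_inv_cancel₀ D.ϖ_ne_zero]
  exact D.irreducible_ϖT.not_isUnit (IsUnit.of_mul_eq_one _ h1)

/-- `π` is not a unit of `O_b` -/
theorem pi_inv_not_mem : (algebraMap R F D.π)⁻¹ ∉ D.O := by
  intro h
  obtain ⟨u, hu⟩ := D.exists_unit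
  apply D.ϖ_inv_not_mem
  have hπ : algebraMap R F D.π ≠ 0 := algebraMap_RF_ne_zero D.pi_ne_zero
  have h1 : D.ϖ⁻¹ = D.ϖ ^ (D.e - 1) * ((u⁻¹ : D.Oˣ) : D.O) * (algebraMap R F D.π)⁻¹ := by
    have hu0 : (((u : D.O) : F)) * (((u⁻¹ : D.Oˣ) : D.O) : F) = 1 := by
      rw [← MulMemClass.coe_mul, Units.mul_inv]; rfl
    have he : D.ϖ ^ D.e = D.ϖ ^ (D.e - 1) * D.ϖ := by
      rw [← pow_succ, Nat.sub_add_cancel D.e_pos]
    have h2 : D.ϖ ^ (D.e - 1) * D.ϖ * (((u⁻¹ : D.Oˣ) : D.O) : F) = algebraMap R F D.π := by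
      rw [← he, hu, mul_assoc, hu0, mul_one]
    rw [eq_comm, ← h2]
    have := D.ϖ_ne_zero
    field_simp
  rw [h1]
  exact D.O.mul_mem _ _ (D.O.mul_mem _ _ (D.O.pow_mem D.ϖ_mem _) (SetLike.coe_mem _)) h


/-- `O_b` dominates `R`: a constant `r ∈ R` lies in `ϖ O_b` iff `π ∣ r` -/
theorem algebraMap_mem_ϖ_iff (r : R) :
    (∃ y : D.O, algebraMap R F r = D.ϖ * (y : F)) ↔ D.π ∣ r := by
  rw [← D.red_eq_zero_iff ⟨_, D.algebraMap_mem r⟩, D.red_algebraMap, D.residue_eq_zero_iff_dvd]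

theorem coe_unit_mul_inv (u : D.Oˣ) : (((u : D.O) : F)) * (((u⁻¹ : D.Oˣ) : D.O) : F) = 1 := by
  rw [← MulMemClass.coe_mul, Units.mul_inv]; rfl

/-- membership in `O_b` in terms of the `ϖ`-adic order -/
theorem zpow_mul_unit_mem_iff (n : ℤ) (u : D.Oˣ) :
    D.ϖ ^ n * ((u : D.O) : F) ∈ D.O ↔ 0 ≤ n := by
  constructor
  · intro h
    by_contra hn
    rw [not_le] at hn
    apply D.ϖ_inv_not_mem
    have h1 : D.ϖ ^ n ∈ D.O := by
      have := D.O.mul_mem _ _ h (SetLike.coe_mem ((u⁻¹ : D.Oˣ) : D.O))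
      rwa [mul_assoc, D.coe_unit_mul_inv, mul_one] at this
    obtain ⟨m, hm⟩ := Int.eq_ofNat_of_zero_le (by omega : (0 : ℤ) ≤ -n - 1)
    have h2 : D.ϖ⁻¹ = D.ϖ ^ n * D.ϖ ^ m := by
      rw [← zpow_natCast, ← hm, ← zpow_add₀ D.ϖ_ne_zero]
      have : n + (-n - 1) = -1 := by ring
      rw [this, zpow_neg_one]
    rw [h2]
    exact D.O.mul_mem _ _ h1 (D.O.pow_mem D.ϖ_mem _)
  · intro hn
    obtain ⟨m, rfl⟩ := Int.eq_ofNat_of_zero_le hn
    rw [zpow_natCast]
    exact D.O.mul_mem _ _ (D.O.pow_mem D.ϖ_mem _) (SetLike.coe_mem _)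

end EisData

end Fermat.Agent.S36lib.Eis
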