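/-
S36lib / Eis / DVR  (helper2)

The elementary criterion for a discrete valuation ring: a domain in which every nonzero element is
`π ^ n · unit` for a fixed nonzero non-unit `π`.
-/
import Mathlib

set_option autoImplicit false

namespace Fermat.Agent.S36lib.Eis

variable {R : Type*} [CommRing R] [IsDomain R]

theorem irreducible_of_pow_mul_unit {π : R} (hπ0 : π ≠ 0) (hπu : ¬ IsUnit π)
    (h : ∀ r : R, r ≠ 0 → ∃ (n : ℕ) (u : Rˣ), r = π ^ n * u) : Irreducible π := by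
  refine ⟨hπu, ?_⟩
  intro a b hab
  have ha0 : a ≠ 0 := by
    rintro rfl
    rw [zero_mul] at hab
    exact hπ0 hab
  have hb0 : b ≠ 0 := by
    rintro rfl
    rw [mul_zero] at hab
    exact hπ0 hab
  obtain ⟨i, u, hu⟩ := h a ha0
  obtain ⟨j, u', hu'⟩ := h b hb0
  rcases Nat.eq_zero_or_pos i with hi | hi
  · left
    rw [hu, hi, pow_zero, one_mul]
    exact u.isUnit
  rcases Nat.eq_zero_or_pos j with hj | hj
  · right
    rw [hu', hj, pow_zero, one_mul]
    exact u'.isUnit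
  exfalso
  -- `π = π ^ (i + j) · unit` with `i + j ≥ 2`
  obtain ⟨i', rfl⟩ : ∃ i', i = i' + 1 := ⟨i - 1, by omega⟩
  obtain ⟨j', rfl⟩ : ∃ j', j = j' + 1 := ⟨j - 1, by omega⟩
  have h1 : π * 1 = π * (π ^ (i' + j' + 1) * ((u * u' : Rˣ) : R)) := by
    rw [mul_one, Units.val_mul]
    conv_lhs => rw [hab, hu, hu']
    ring
  have h2 := mul_left_cancel₀ hπ0 h1
  apply hπu
  have h3 : π * (π ^ (i' + j') * ((u * u' : Rˣ) : R)) = 1 := by
    rw [h2]
    ring
  exact IsUnit.of_mul_eq_one _ h3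

theorem isDiscreteValuationRing_of_pow_mul_unit {π : R} (hπ0 : π ≠ 0) (hπu : ¬ IsUnit π)
    (h : ∀ r : R, r ≠ 0 → ∃ (n : ℕ) (u : Rˣ), r = π ^ n * u) : IsDiscreteValuationRing R := by
  apply IsDiscreteValuationRing.ofHasUnitMulPowIrreducibleFactorization
  refine ⟨π, irreducible_of_pow_mul_unit hπ0 hπu h, ?_⟩
  intro w hw
  obtain ⟨n, u, hu⟩ := h w hw
  exact ⟨n, u, hu.symm⟩

end Fermat.Agent.S36lib.Eis
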