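/-
S36lib / Eis / Base  (helper2)

**The `K`-rational Gauss ring at `∞`** as a subring of `FBar N`:
`RK H D = D.O ∩ fixF N H` for a Gauss datum `D` over `(ℚ̄, A)` of "`∞`-type" (`IsInfDatum`:
integral `t`-expansions lie in `D.O`, those with nonzero coefficientwise reduction are units) and a
group `H ⊇ I_A`.  It is a discrete valuation ring with uniformizer `q` (hypothesis (i),
`Desc.exists_qPow_mul_unit`), the kernel of the reduction `redK : RK → Fk` is `(q)`, and
`resK : ResidueField RK →+* Fk` is the induced embedding.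
-/
import Mathlib
import Fermat.Agent.S36lib.Desc.FixF
import Fermat.Agent.S36lib.Eis.DVR

set_option autoImplicit false
set_option linter.unusedSectionVars false
set_option linter.unusedVariables false
set_option linter.style.haveILetI false

noncomputable section

namespace Fermat.Agent.S36lib.Eis

open ModularCurve Fermat.Agent.S18lib Fermat.Agent.S18lib.V Fermat.Agent.S13lib
open Fermat.Agent.LSb.Val Fermat.Agent.S29lib.GH Fermat.Agent.S36lib.Desc2
open Fermat.Agent.S36lib.Desc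

local notation "Qb" => AlgebraicClosure ℚ
local notation "GQ" => (AlgebraicClosure ℚ ≃ₐ[ℚ] AlgebraicClosure ℚ)

variable {A : ValuationSubring Qb} {q : ℕ} {N : ℕ} [NeZero N]
variable {Fk : Type*} [Field Fk] [Algebra (IsLocalRing.ResidueField A) Fk]

/-- a Gauss datum of `∞`-type: the integral `t`-expansions lie in `O`, and those with nonzero
coefficientwise reduction have nonzero reduction -/
structure IsInfDatum (D : GaussDatum A (FBar N) Fk) : Prop where
  mem : ∀ (y : LaurentSeries A) (hy : toL A y ∈ modularFunctionFieldBar N),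
    (⟨toL A y, hy⟩ : FBar N) ∈ D.O
  red : ∀ (y : LaurentSeries A) (hy : toL A y ∈ modularFunctionFieldBar N), toK A y ≠ 0 →
    D.redF (⟨toL A y, hy⟩ : FBar N) ≠ 0

/-- data whose reduction is the coefficientwise one are of `∞`-type -/
theorem isInfDatum_of_coe {M' : ℕ} (D : GaussDatum A (FBar N) (FRes A M'))
    (hmem : ∀ (y : LaurentSeries A) (hy : toL A y ∈ modularFunctionFieldBar N),
      (⟨toL A y, hy⟩ : FBar N) ∈ D.O)
    (hred : ∀ (y : LaurentSeries A) (hy : toL A y ∈ modularFunctionFieldBar N),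
      ((D.redF (⟨toL A y, hy⟩ : FBar N) : FRes A M') :
        LaurentSeries (IsLocalRing.ResidueField A)) = toK A y) : IsInfDatum D :=
  ⟨hmem, fun y hy hyK h0 => hyK (by rw [← hred y hy, h0]; rfl)⟩

variable (H : Subgroup GQ) (D : GaussDatum A (FBar N) Fk)

/-- the `K`-rational Gauss ring `D.O ∩ fixF N H` -/
def RK : Subring (FBar N) := D.O.toSubring ⊓ (fixF N H).toSubring

variable {H D}

theorem mem_RK {f : FBar N} : f ∈ RK H D ↔ f ∈ D.O ∧ f ∈ fixF N H := by
  rw [RK, Subring.mem_inf]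
  rfl

theorem natCast_mem_fixF (n : ℕ) : ((n : ℕ) : FBar N) ∈ fixF N H := natCast_mem _ n

theorem natCast_mem_O (n : ℕ) : ((n : ℕ) : FBar N) ∈ D.O := natCast_mem _ n

/-- `q` as an element of `RK` -/
def qK (H : Subgroup GQ) (D : GaussDatum A (FBar N) Fk) (q : ℕ) : RK H D := ((q : ℕ) : RK H D)

@[simp] theorem coe_qK : ((qK H D q : RK H D) : FBar N) = ((q : ℕ) : FBar N) := by
  rw [qK]
  simp

theorem qK_ne_zero (hq : q.Prime) : qK H D q ≠ 0 := by
  intro h
  have h1 := congrArg (fun r : RK H D => (r : FBar N)) h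
  simp only [coe_qK, ZeroMemClass.coe_zero] at h1
  exact hq.ne_zero (by exact_mod_cast h1)

theorem natCast_inv_not_mem (hq : q.Prime) (hA : A.LiesOverPrime q) :
    (((q : ℕ) : FBar N))⁻¹ ∉ D.O := by
  intro h
  have h1 : algebraMap Qb (FBar N) ((q : Qb)⁻¹) ∈ D.O := by
    rw [map_inv₀, map_natCast]
    exact h
  rw [D.algebraMap_mem_iff] at h1
  have h2 : A.valuation ((q : Qb)⁻¹) ≤ 1 := (A.valuation_le_one_iff _).mpr h1
  have h3 : A.valuation (q : Qb) < 1 := valuation_q_lt_one hA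
  rw [map_inv₀] at h2
  have h4 : 1 < (A.valuation (q : Qb))⁻¹ := (one_lt_inv₀ (valuation_q_pos hq)).mpr h3
  exact absurd h2 (not_le.mpr h4)

theorem qK_not_isUnit (hq : q.Prime) (hA : A.LiesOverPrime q) : ¬ IsUnit (qK H D q) := by
  rintro ⟨u, hu⟩
  apply natCast_inv_not_mem (D := D) hq hA
  have h1 : (((u⁻¹ : (RK H D)ˣ) : RK H D) : FBar N) = (((q : ℕ) : FBar N))⁻¹ := by
    have h2 : ((u : RK H D) : FBar N) * (((u⁻¹ : (RK H D)ˣ) : RK H D) : FBar N) = 1 := by
      rw [← Subring.coe_mul, Units.mul_inv]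
      rfl
    rw [hu, coe_qK] at h2
    exact eq_inv_of_mul_eq_one_right h2
  rw [← h1]
  exact (mem_RK.mp ((u⁻¹ : (RK H D)ˣ) : RK H D).2).1

theorem qPow_mem_fixF (m : ℤ) : qPow N q m ∈ fixF N H := by
  rw [qPow_eq]
  exact zpow_mem (natCast_mem_fixF q) m

/-- a fixed unit of `D.O` is a unit of `RK` -/
def unitK (f : FBar N) (h1 : f ∈ D.O) (h2 : f⁻¹ ∈ D.O) (h3 : f ∈ fixF N H) (h0 : f ≠ 0) :
    (RK H D)ˣ where
  val := ⟨f, mem_RK.mpr ⟨h1, h3⟩⟩
  inv := ⟨f⁻¹, mem_RK.mpr ⟨h2, inv_mem h3⟩⟩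
  val_inv := Subtype.ext (mul_inv_cancel₀ h0)
  inv_val := Subtype.ext (inv_mul_cancel₀ h0)

@[simp] theorem coe_unitK (f : FBar N) (h1 : f ∈ D.O) (h2 : f⁻¹ ∈ D.O) (h3 : f ∈ fixF N H)
    (h0 : f ≠ 0) : (((unitK f h1 h2 h3 h0 : (RK H D)ˣ) : RK H D) : FBar N) = f := rfl

section Discrete

variable (hD : IsInfDatum D) (hq : q.Prime) (hA : A.LiesOverPrime q)
  (hH : A.inertiaSubgroupIn ℚ ≤ H)

include hD hq hA hH in
/-- **every nonzero element of `RK` is `q ^ n · unit`** -/
theorem exists_pow_mul_unit_RK (r : RK H D) (hr : r ≠ 0) :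
    ∃ (n : ℕ) (u : (RK H D)ˣ), r = qK H D q ^ n * u := by
  obtain ⟨hrO, hrfix⟩ := mem_RK.mp r.2
  have hf0 : (r : FBar N) ≠ 0 := fun h => hr (Subtype.ext h)
  obtain ⟨m, u, hu⟩ := exists_qPow_mul_unit H D hD.mem hD.red hq hA hH (mem_fixF.mp hrfix) hf0
  have hq0 : ((q : ℕ) : FBar N) ≠ 0 := by exact_mod_cast hq.ne_zero
  have huO : ((u : D.O) : FBar N) ∈ D.O := (u : D.O).2
  have huiO : (((u : D.O) : FBar N))⁻¹ ∈ D.O := by
    have : (((u⁻¹ : D.Oˣ) : D.O) : FBar N) = (((u : D.O) : FBar N))⁻¹ := by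
      have h2 : ((u : D.O) : FBar N) * (((u⁻¹ : D.Oˣ) : D.O) : FBar N) = 1 := by
        rw [← D.O.coe_mul, Units.mul_inv]
        rfl
      exact eq_inv_of_mul_eq_one_right h2
    rw [← this]
    exact ((u⁻¹ : D.Oˣ) : D.O).2
  -- `m ≤ 0`
  have hm : m ≤ 0 := by
    by_contra hpos
    rw [not_le] at hpos
    apply natCast_inv_not_mem (D := D) hq hA
    have h1 : (((q : ℕ) : FBar N))⁻¹ =
        ((q : ℕ) : FBar N) ^ (m - 1).toNat * (r : FBar N) * (((u : D.O) : FBar N))⁻¹ := by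
      rw [← hu, qPow_eq]
      have h2 : (((q : ℕ) : FBar N) ^ (m - 1).toNat : FBar N) = ((q : ℕ) : FBar N) ^ (m - 1) := by
        rw [← zpow_natCast, Int.toNat_of_nonneg (by omega)]
      rw [h2, zpow_sub₀ hq0, zpow_one]
      field_simp
    rw [h1]
    exact D.O.mul_mem _ _ (D.O.mul_mem _ _ (D.O.pow_mem (natCast_mem_O q) _) hrO) huiO
  have hufix : ((u : D.O) : FBar N) ∈ fixF N H := by
    rw [← hu]
    exact mul_mem (qPow_mem_fixF m) hrfix
  have hu0 : ((u : D.O) : FBar N) ≠ 0 := by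
    rw [← hu]
    exact mul_ne_zero (qPow_ne_zero N hq m) hf0
  refine ⟨(-m).toNat, unitK _ huO huiO hufix hu0, Subtype.ext ?_⟩
  rw [Subring.coe_mul, Subring.coe_pow, coe_qK, coe_unitK, ← hu, qPow_eq, ← zpow_natCast,
    Int.toNat_of_nonneg (by omega), ← mul_assoc, ← zpow_add₀ hq0, neg_add_cancel, zpow_zero,
    one_mul]

include hD hq hA hH in
/-- **`RK` is a discrete valuation ring** (uniformizer `q`) -/
theorem isDiscreteValuationRing_RK : IsDiscreteValuationRing (RK H D) :=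
  isDiscreteValuationRing_of_pow_mul_unit (qK_ne_zero hq) (qK_not_isUnit hq hA)
    (exists_pow_mul_unit_RK hD hq hA hH)

include hD hq hA hH in
theorem irreducible_qK : Irreducible (qK H D q) :=
  irreducible_of_pow_mul_unit (qK_ne_zero hq) (qK_not_isUnit hq hA)
    (exists_pow_mul_unit_RK hD hq hA hH)

end Discrete

/-! ### the reduction map -/

variable (H D) in
/-- the reduction `RK → Fk` -/
def redK : RK H D →+* Fk :=
  D.red.comp (Subring.inclusion (inf_le_left : RK H D ≤ D.O.toSubring))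

theorem redK_apply (r : RK H D) : redK H D r = D.redF (r : FBar N) := by
  rw [D.redF_of_mem (mem_RK.mp r.2).1]
  rfl

theorem redF_natCast_q (hA : A.LiesOverPrime q) : D.redF ((q : ℕ) : FBar N) = 0 := by
  have hqA : ((q : ℕ) : Qb) ∈ A := natCast_mem A q
  have h1 := D.redF_algebraMap ⟨(q : Qb), hqA⟩
  have h2 : algebraMap Qb (FBar N) ((⟨(q : Qb), hqA⟩ : A) : Qb) = ((q : ℕ) : FBar N) :=
    map_natCast _ q
  rw [h2] at h1
  rw [h1]
  have h3 : IsLocalRing.residue A ⟨(q : Qb), hqA⟩ = 0 := by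
    rw [IsLocalRing.residue_eq_zero_iff, IsLocalRing.mem_maximalIdeal, mem_nonunits_iff]
    intro hu
    have h4 : ((q : ℕ) : Qb) ∈ A.nonunits := hA
    rw [ValuationSubring.mem_nonunits_iff_exists_mem_maximalIdeal] at h4
    obtain ⟨hm, hm'⟩ := h4
    exact (IsLocalRing.mem_maximalIdeal _).mp hm' hu
  rw [h3, map_zero]

theorem redK_qK (hA : A.LiesOverPrime q) : redK H D (qK H D q) = 0 := by
  rw [redK_apply, coe_qK]
  exact redF_natCast_q hA

theorem redK_unit_ne_zero (u : (RK H D)ˣ) : redK H D (u : RK H D) ≠ 0 := by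
  intro h
  have h1 := congrArg (redK H D) u.mul_inv
  rw [map_mul, h, zero_mul, map_one] at h1
  exact zero_ne_one h1

section Kernel

variable (hD : IsInfDatum D) (hq : q.Prime) (hA : A.LiesOverPrime q)
  (hH : A.inertiaSubgroupIn ℚ ≤ H)

include hD hq hA hH in
/-- **the kernel of the reduction is `(q)`** -/
theorem redK_eq_zero_iff (r : RK H D) : redK H D r = 0 ↔ qK H D q ∣ r := by
  constructor
  · intro h
    by_cases hr : r = 0
    · rw [hr]
      exact dvd_zero _
    · obtain ⟨n, u, hu⟩ := exists_pow_mul_unit_RK hD hq hA hH r hr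
      rcases Nat.eq_zero_or_pos n with hn | hn
      · exfalso
        rw [hu, hn, pow_zero, one_mul] at h
        exact redK_unit_ne_zero u h
      · obtain ⟨n', rfl⟩ : ∃ n', n = n' + 1 := ⟨n - 1, by omega⟩
        exact ⟨qK H D q ^ n' * u, by rw [hu]; ring⟩
  · rintro ⟨s, rfl⟩
    rw [map_mul, redK_qK hA, zero_mul]

include hD hq hA hH in
theorem isUnit_iff_redK_ne_zero (r : RK H D) : IsUnit r ↔ redK H D r ≠ 0 := by
  constructor
  · rintro ⟨u, rfl⟩
    exact redK_unit_ne_zero u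
  · intro h
    have hr : r ≠ 0 := by
      rintro rfl
      exact h (map_zero _)
    obtain ⟨n, u, hu⟩ := exists_pow_mul_unit_RK hD hq hA hH r hr
    rcases Nat.eq_zero_or_pos n with hn | hn
    · rw [hu, hn, pow_zero, one_mul]
      exact u.isUnit
    · exfalso
      apply h
      rw [redK_eq_zero_iff hD hq hA hH]
      obtain ⟨n', rfl⟩ : ∃ n', n = n' + 1 := ⟨n - 1, by omega⟩
      exact ⟨qK H D q ^ n' * u, by rw [hu]; ring⟩

include hD hq hA hH in
theorem isLocalHom_redK : IsLocalHom (redK H D) :=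
  ⟨fun r hr => (isUnit_iff_redK_ne_zero hD hq hA hH r).mpr hr.ne_zero⟩

end Kernel

/-- membership in `RK` of a fixed element with nonzero reduction, together with its inverse -/
theorem mem_RK_of_redF_ne_zero {f : FBar N} (hf : f ∈ fixF N H) (h : D.redF f ≠ 0) :
    f ∈ RK H D ∧ f⁻¹ ∈ RK H D :=
  ⟨mem_RK.mpr ⟨D.mem_of_redF_ne_zero h, hf⟩, mem_RK.mpr ⟨D.inv_mem_of_redF_ne_zero h, inv_mem hf⟩⟩

end Fermat.Agent.S36lib.Eis
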