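/-
S36lib / Eis / Deriv  (helper2)

**(m3)**: the constant coefficient of the Eisenstein equation of `ϖ = j(t^(q²)) − j(t)`.

Over the algebraic integers `Zb`, with `J = j(t)`, `J_q = j(t^q)` and `Φ = Φ_q ∈ Zb[Y][X]`
(`Φ(J; J_q) = 0`):   `∂_XΦ(J; J_q) = q · G`,   `G · θJ = − ∂_YΦ(J; J_q) · (θJ)(t^q)`,
and for every `ι : Zb → k`, `char k = q`, the reduction of `G` is nonzero
(`∂_YΦ ≡ −(X − Y^q)`, so `Ḡ · θJ̄ = (J̄ − J̄(t^(q²))) · (θJ̄)(t^q)`).
-/
import Mathlib
import Fermat.Agent.S28lib.Theta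
import Fermat.Agent.S28lib.PhiIntegral
import Fermat.Agent.S37lib.ConjNorm.Kronecker

set_option autoImplicit false
set_option linter.unusedSectionVars false
set_option linter.unusedVariables false
set_option linter.style.haveILetI false

noncomputable section

namespace Fermat.Agent.S36lib.Eis

open ModularCurve Polynomial Fermat.Agent.S28lib Fermat.Agent.S37lib.ConjNorm

/-! ### `θ j` is a unit -/

section Theta

variable (R : Type*) [CommRing R]

theorem theta_jqModC_coeff_neg_one : (theta R (jqModC R)).coeff (-1) = -1 := by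
  rw [theta_coeff, coeff_jqModC_neg_one]
  simp

theorem theta_jqModC_coeff_of_lt {m : ℤ} (hm : m < -1) : (theta R (jqModC R)).coeff m = 0 := by
  rw [theta_coeff, coeff_jqModC_of_lt R hm, mul_zero]

theorem theta_jqModC_ne_zero' [Nontrivial R] : theta R (jqModC R) ≠ 0 := by
  intro h
  have := theta_jqModC_coeff_neg_one R
  rw [h, HahnSeries.coeff_zero] at this
  exact neg_ne_zero.mpr one_ne_zero this.symm

theorem order_theta_jqModC [Nontrivial R] : (theta R (jqModC R)).order = -1 := by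
  refine le_antisymm (HahnSeries.order_le_of_coeff_ne_zero ?_) ?_
  · rw [theta_jqModC_coeff_neg_one]
    exact neg_ne_zero.mpr one_ne_zero
  · by_contra hlt
    rw [not_le] at hlt
    exact (HahnSeries.coeff_order_eq_zero.not.mpr (theta_jqModC_ne_zero' R))
      (theta_jqModC_coeff_of_lt R hlt)

theorem isUnit_theta_jqModC [IsDomain R] : IsUnit (theta R (jqModC R)) := by
  rw [HahnSeries.isUnit_iff, HahnSeries.leadingCoeff_eq, order_theta_jqModC,
    theta_jqModC_coeff_neg_one]
  exact isUnit_one.neg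

end Theta

/-! ### `dY` and base change -/

section DY

variable {R S : Type*} [CommRing R] [CommRing S]

theorem dY_sub (P Q : Polynomial (Polynomial R)) : dY (P - Q) = dY P - dY Q := by
  have h := dY_add (P - Q) Q
  rw [sub_add_cancel] at h
  rw [h, add_sub_cancel_right]

theorem dY_map (f : R →+* S) (P : Polynomial (Polynomial R)) :
    dY (P.map (mapRingHom f)) = (dY P).map (mapRingHom f) := by
  induction P using Polynomial.induction_on' with
  | add P Q hP hQ => rw [Polynomial.map_add, dY_add, hP, hQ, dY_add, Polynomial.map_add]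
  | monomial n c =>
    rw [Polynomial.map_monomial, dY_monomial, dY_monomial, Polynomial.map_monomial]
    simp only [coe_mapRingHom, Polynomial.derivative_map]

theorem dY_X_pow (n : ℕ) : dY ((X : Polynomial (Polynomial R)) ^ n) = 0 := by
  rw [← Polynomial.monomial_one_right_eq_X_pow, dY_monomial, Polynomial.derivative_one,
    Polynomial.monomial_zero_right]

theorem dY_C_mul_X_pow (c : Polynomial R) (n : ℕ) :
    dY (C c * (X : Polynomial (Polynomial R)) ^ n) = C (Polynomial.derivative c) * X ^ n := by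
  rw [Polynomial.C_mul_X_pow_eq_monomial, dY_monomial, Polynomial.C_mul_X_pow_eq_monomial]

/-- `∂_Y` of the Kronecker polynomial in characteristic `p` -/
theorem dY_kronecker (p : ℕ) [CharP R p] (hp : p ≠ 0) :
    dY ((X ^ p - C (X : R[X])) * (X - C ((X : R[X]) ^ p))) = -(X - C ((X : R[X]) ^ p)) := by
  have hexp : (X ^ p - C (X : R[X])) * (X - C ((X : R[X]) ^ p)) =
      X ^ (p + 1) - C ((X : R[X]) ^ p) * X ^ p - C (X : R[X]) * X ^ 1 +
        C ((X : R[X]) ^ (p + 1)) * X ^ 0 := by
    rw [pow_zero, pow_one, mul_one, pow_succ, pow_succ, C_mul, C_pow]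
    ring
  rw [hexp, dY_add, dY_sub, dY_sub, dY_X_pow, dY_C_mul_X_pow, dY_C_mul_X_pow, dY_C_mul_X_pow,
    Polynomial.derivative_X_pow, Polynomial.derivative_X, Polynomial.derivative_X_pow]
  have h1 : ((p : ℕ) : R) = 0 := CharP.cast_eq_zero R p
  have h2 : (((p + 1 : ℕ)) : R) = 1 := by
    rw [Nat.cast_add, h1, zero_add, Nat.cast_one]
  rw [h1, h2, Nat.add_sub_cancel, map_zero, zero_mul, map_zero, zero_mul, map_one, one_mul,
    pow_zero, pow_one, mul_one, map_one, one_mul]
  ring

theorem coeffMap_eval₂_evalJ (f : R →+* S) (y x : LaurentSeries R)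
    (P : Polynomial (Polynomial R)) :
    coeffMap f (P.eval₂ (evalJ R y) x) =
      (P.map (mapRingHom f)).eval₂ (evalJ S (coeffMap f y)) (coeffMap f x) := by
  rw [Polynomial.hom_eval₂, Polynomial.eval₂_map]
  congr 1
  refine RingHom.ext fun c => ?_
  simp only [RingHom.comp_apply, coeffMap_evalJ, coe_mapRingHom]

end DY

/-! ### the differentiated modular equation over `Zb` -/

section Main

variable (q : ℕ) [Fact q.Prime] [NeZero q]

/-- `Φ(j(t); j(t^q)) = 0` over the algebraic integers -/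
theorem phiZ_eval₂_swap :
    (phiZ q).eval₂ (evalJ Zb (qExpand Zb q (jqModC Zb))) (jqModC Zb) = 0 := by
  have h := phiZ_factor q
  rw [modLHS, modRHS] at h
  rw [Polynomial.eval₂_eq_eval_map, h, Polynomial.eval_mul, Polynomial.eval_prod]
  have hq0 : 0 < q := Nat.pos_of_ne_zero (NeZero.ne q)
  have h0 : (0 : ℕ) ∈ Finset.range q := Finset.mem_range.mpr hq0
  rw [Finset.prod_eq_zero h0, mul_zero]
  rw [pow_zero, twist_one_unit, Polynomial.eval_sub, Polynomial.eval_X, Polynomial.eval_C,
    sub_self]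

/-- `∂_XΦ(J; J_q)` -/
def dXPhi : LaurentSeries Zb :=
  (Polynomial.derivative (phiZ q)).eval₂ (evalJ Zb (qExpand Zb q (jqModC Zb))) (jqModC Zb)

/-- `∂_YΦ(J; J_q)` -/
def dYPhi : LaurentSeries Zb :=
  (dY (phiZ q)).eval₂ (evalJ Zb (qExpand Zb q (jqModC Zb))) (jqModC Zb)

/-- the differentiated modular equation `∂_XΦ · θJ = −q ∂_YΦ · (θJ)(t^q)` -/
theorem dXPhi_mul_theta :
    dXPhi q * theta Zb (jqModC Zb) =
      -((q : LaurentSeries Zb) * (dYPhi q * qExpand Zb q (theta Zb (jqModC Zb)))) := by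
  have h0 : dYPhi q * theta Zb (qExpand Zb q (jqModC Zb)) + dXPhi q * theta Zb (jqModC Zb) = 0 := by
    rw [dYPhi, dXPhi, ← theta_eval₂, phiZ_eval₂_swap, map_zero]
  rw [theta_qExpand, nsmul_eq_mul] at h0
  linear_combination h0

/-- `G = ∂_XΦ(J; J_q) / q` -/
def dXG : LaurentSeries Zb :=
  -(dYPhi q * qExpand Zb q (theta Zb (jqModC Zb))) * ((isUnit_theta_jqModC Zb).unit⁻¹ : _ˣ)

theorem dXG_mul_theta :
    dXG q * theta Zb (jqModC Zb) = -(dYPhi q * qExpand Zb q (theta Zb (jqModC Zb))) := by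
  rw [dXG, mul_assoc]
  have : (((isUnit_theta_jqModC Zb).unit⁻¹ : (LaurentSeries Zb)ˣ) : LaurentSeries Zb) *
      theta Zb (jqModC Zb) = 1 := by
    have h := (isUnit_theta_jqModC Zb).unit.inv_mul
    rwa [IsUnit.unit_spec] at h
  rw [this, mul_one]

/-- **`∂_XΦ_q(j(t); j(t^q)) = q · G`** -/
theorem dXPhi_eq : dXPhi q = (q : LaurentSeries Zb) * dXG q := by
  have hu := isUnit_theta_jqModC Zb
  apply hu.mul_right_cancel
  rw [dXPhi_mul_theta, mul_assoc, dXG_mul_theta]
  ring

/-- **the reduction of `G` is nonzero** -/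
theorem coeffMap_dXG_ne_zero {k : Type*} [Field k] [CharP k q] (ι : Zb →+* k) :
    coeffMap ι (dXG q) ≠ 0 := by
  have hq : q.Prime := Fact.out
  have h1 := congrArg (coeffMap ι) (dXG_mul_theta q)
  rw [map_mul, map_neg, map_mul, coeffMap_theta, coeffMap_jqModC, coeffMap_qExpand, coeffMap_theta,
    coeffMap_jqModC, dYPhi, coeffMap_eval₂_evalJ, ← dY_map, kronecker q ι,
    dY_kronecker q hq.ne_zero, coeffMap_qExpand, coeffMap_jqModC] at h1
  simp only [Polynomial.eval₂_neg, Polynomial.eval₂_sub, Polynomial.eval₂_X, Polynomial.eval₂_C,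
    Polynomial.eval₂_pow, map_pow, evalJ_X] at h1
  intro h0
  rw [h0, zero_mul, neg_mul, neg_neg, qExpand_jqModC_pow_char q] at h1
  have hθ : theta k (jqModC k) ≠ 0 := theta_jqModC_ne_zero' k
  have hθq : qExpand k q (theta k (jqModC k)) ≠ 0 := qExpand_ne_zero q hθ
  have hJ : jqModC k - qExpand k q (qExpand k q (jqModC k)) ≠ 0 := by
    intro h
    have ho := congrArg HahnSeries.order (sub_eq_zero.mp h)
    rw [order_qExpand, order_qExpand, order_jqModC] at ho
    have hq2 : 2 ≤ q := hq.two_le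
    have : (2 : ℤ) ≤ (q : ℤ) := by exact_mod_cast hq2
    nlinarith
  exact mul_ne_zero hJ hθq h1.symm

end Main

end Fermat.Agent.S36lib.Eis
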