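/-
S36lib / Eis / Shift  (helper2)

Polynomial bookkeeping for the Eisenstein instance: for a monic `P ∈ S[X]` with root `x`,
`quotShift P x := (P / (X - x))(X + x)`.

* `quotShift_map`, `quotShift_monic`, `natDegree_quotShift`;
* `quotShift_coeff_zero : (quotShift P x).coeff 0 = P'(x)`;
* `quotShift_of_char : P = (X^q - a^q)(X - b)` in characteristic `q` ⇒
  `quotShift P a = X^(q-1) (X + (a - b))`  (the Kronecker shape);
* `aeval_sub_quotShift : P(y) = 0`, `y ≠ x` ⇒ `(quotShift P x)(y - x) = 0`.
-/
import Mathlib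

set_option autoImplicit false

noncomputable section

namespace Fermat.Agent.S36lib.Eis

open Polynomial

variable {S : Type*} [CommRing S]

/-- `P / (X - x)`, shifted by `x` -/
def quotShift (P : S[X]) (x : S) : S[X] := (P /ₘ (X - C x)).comp (X + C x)

theorem quotShift_map {T : Type*} [CommRing T] (f : S →+* T) (P : S[X]) (x : S) :
    (quotShift P x).map f = quotShift (P.map f) (f x) := by
  rw [quotShift, quotShift, Polynomial.map_comp, map_divByMonic f (monic_X_sub_C x)]
  simp

theorem mul_divByMonic_eq_of_isRoot {P : S[X]} {x : S} (hx : P.IsRoot x) :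
    (X - C x) * (P /ₘ (X - C x)) = P :=
  mul_divByMonic_eq_iff_isRoot.mpr hx

theorem divByMonic_monic [Nontrivial S] {P : S[X]} (hP : P.Monic) {x : S} (hx : P.IsRoot x) :
    (P /ₘ (X - C x)).Monic := by
  have h := mul_divByMonic_eq_of_isRoot hx
  exact Monic.of_mul_monic_left (monic_X_sub_C x) (by rw [h]; exact hP)

theorem quotShift_monic [Nontrivial S] {P : S[X]} (hP : P.Monic) {x : S} (hx : P.IsRoot x) :
    (quotShift P x).Monic :=
  (divByMonic_monic hP hx).comp_X_add_C x

theorem natDegree_divByMonic_of_isRoot [Nontrivial S] {P : S[X]} (hP : P.Monic) {x : S}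
    (hx : P.IsRoot x) : (P /ₘ (X - C x)).natDegree + 1 = P.natDegree := by
  have h := mul_divByMonic_eq_of_isRoot hx
  have h2 := (monic_X_sub_C x).natDegree_mul (divByMonic_monic hP hx)
  rw [h, natDegree_X_sub_C] at h2
  omega

theorem natDegree_quotShift [Nontrivial S] [NoZeroDivisors S] {P : S[X]} (hP : P.Monic) {x : S}
    (hx : P.IsRoot x) : (quotShift P x).natDegree + 1 = P.natDegree := by
  rw [quotShift, natDegree_comp, natDegree_X_add_C, mul_one]
  exact natDegree_divByMonic_of_isRoot hP hx

theorem quotShift_coeff_zero {P : S[X]} {x : S} (hx : P.IsRoot x) :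
    (quotShift P x).coeff 0 = P.derivative.eval x := by
  rw [quotShift, coeff_zero_eq_eval_zero, eval_comp, eval_add, eval_X, eval_C, zero_add]
  have h := congrArg (fun p => (derivative p).eval x) (mul_divByMonic_eq_of_isRoot hx)
  simp only [derivative_mul, derivative_sub, derivative_X, derivative_C, sub_zero, one_mul,
    eval_add, eval_mul, eval_sub, eval_X, eval_C, sub_self, zero_mul, add_zero] at h
  exact h

/-- the Kronecker shape in characteristic `q` -/
theorem quotShift_of_char {T : Type*} [CommRing T] (q : ℕ) [hq : Fact q.Prime] [CharP T q]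
    (a b : T) :
    quotShift ((X ^ q - C (a ^ q)) * (X - C b)) a = X ^ (q - 1) * (X + C (a - b)) := by
  have h1 : (X ^ q - C (a ^ q) : T[X]) = (X - C a) ^ q := by
    rw [sub_pow_char, ← C_pow]
  have h2 : (X - C a : T[X]) ^ q = (X - C a) * (X - C a) ^ (q - 1) := by
    rw [← pow_succ', Nat.sub_add_cancel hq.out.one_le]
  rw [quotShift, h1, h2, mul_assoc, mul_divByMonic_cancel_left _ (monic_X_sub_C a)]
  simp only [mul_comp, pow_comp, sub_comp, X_comp, C_comp, add_sub_cancel_right, C_sub]
  ring

theorem aeval_sub_quotShift {T : Type*} [CommRing T] [IsDomain T] [Algebra S T] {P : S[X]} {x : S}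
    (hx : P.IsRoot x) {y : T} (hy : aeval y P = 0) (hne : y ≠ algebraMap S T x) :
    aeval (y - algebraMap S T x) (quotShift P x) = 0 := by
  rw [quotShift, aeval_comp]
  simp only [map_add, aeval_X, aeval_C, sub_add_cancel]
  have h := congrArg (aeval y) (mul_divByMonic_eq_of_isRoot hx)
  rw [map_mul, hy, map_sub, aeval_X, aeval_C] at h
  rcases mul_eq_zero.mp h with h0 | h0
  · exact absurd (sub_eq_zero.mp h0) hne
  · exact h0

end Fermat.Agent.S36lib.Eis
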