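/-
S36lib / Eis / Poly  (helper2)

**The Eisenstein equation of `ϖ = j(t^(q²)) − j(t)` over `FBar (M q)`**.

`Φ_q(X; j(t^q)) ∈ FBar (M q)[X]` (degree `q + 1`) has the roots `x = j(t)` and (along `α`)
`y = j(t^(q²))`; `QF := quotShift (Φ_q(X; j_q)) x` is the monic polynomial of degree `q` with root
`ϖ = y − α x`.  It is the minimal polynomial of `ϖ` over `α (FBar (M q))` (`Eis/Degree`), hence its
coefficients are fixed by the coefficientwise Galois action.  For a Gauss datum `D1` of level `M q`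
with coefficientwise reduction (`IsCoeffDatum`, e.g. `Old.IsGaussOne`), `QF` has coefficients in
`D1.O`, reduces to `X^(q-1) (X + (x̄ − x̄^(q²)))`, and its constant coefficient is `q · G` with `G` an
integral expansion with nonzero reduction (`Eis/Deriv`).
-/
import Mathlib
import Fermat.Agent.S36lib.Eis.Shift
import Fermat.Agent.S36lib.Eis.Degree
import Fermat.Agent.S36lib.Eis.Deriv
import Fermat.Agent.S36lib.Eis.Base
import Fermat.Agent.LSb.Val.KronNewton

set_option autoImplicit false
set_option linter.unusedSectionVars false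
set_option linter.unusedVariables false
set_option linter.style.haveILetI false

noncomputable section

namespace Fermat.Agent.S36lib.Eis

open ModularCurve Polynomial Fermat.Agent.S18lib Fermat.Agent.S18lib.V Fermat.Agent.S28lib
open Fermat.Agent.LSb.Val Fermat.Agent.S36lib.AL Fermat.Agent.S37lib.ConjNorm
open Fermat.Agent.S29lib.GH

local notation "Qb" => AlgebraicClosure ℚ
local notation "GQ" => (AlgebraicClosure ℚ ≃ₐ[ℚ] AlgebraicClosure ℚ)

/-! ### bivariate evaluation in Laurent series -/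

section BiEval

variable {k : Type*} [CommRing k]

theorem biEval₂_C_comp (ι : Zb →+* k) (P : Zb[X][X]) (x y : LaurentSeries k) :
    biEval₂ ((HahnSeries.C : k →+* LaurentSeries k).comp ι) P x y =
      (P.map (mapRingHom ι)).eval₂ (evalJ k y) x := by
  rw [Polynomial.eval₂_map, biEval₂]
  congr 1
  apply Polynomial.ringHom_ext
  · intro c
    simp [evalJ, Kummer.algebraMap_laurent_eq_C]
  · simp [evalJ]

theorem coeffMap_eval₂_evalJ_eq_biEval₂ (ι : Zb →+* k) (P : Zb[X][X]) (x y : LaurentSeries Zb) :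
    coeffMap ι (P.eval₂ (evalJ Zb y) x) =
      biEval₂ ((HahnSeries.C : k →+* LaurentSeries k).comp ι) P (coeffMap ι x) (coeffMap ι y) := by
  rw [coeffMap_eval₂_evalJ, biEval₂_C_comp]

end BiEval

/-! ### the polynomials over `FBar (M q)` -/

section Level

variable (M q : ℕ) [NeZero M] [NeZero q] [hqF : Fact q.Prime]

/-- `x = j(t)` at level `M q` -/
def xMid : FBar (M * q) := jd (M * q) 1 (one_dvd _)

/-- `j(t^q)` at level `M q` -/
def mMid : FBar (M * q) := jd (M * q) q (Dvd.intro_left M rfl)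

/-- `Φ_q(X; j(t^q))` over `FBar (M q)` -/
def PhiQ : (FBar (M * q))[X] := phiAt (M * q) q q (Dvd.intro_left M rfl)

theorem PhiQ_monic : (PhiQ M q).Monic := phiAt_monic (M * q) q q _

theorem PhiQ_natDegree : (PhiQ M q).natDegree = q + 1 := by
  rw [PhiQ, phiAt, (phiZ_monic q).natDegree_map, phiZ_natDegree]

theorem coe_xMid : ((xMid M q : FBar (M * q)) : LaurentSeries Qb) = jqModC Qb := by
  rw [xMid, coe_jd_eq, qExpand_one_apply]

theorem coe_mMid : ((mMid M q : FBar (M * q)) : LaurentSeries Qb) = qExpand Qb q (jqModC Qb) := by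
  rw [mMid, coe_jd_eq]

theorem eval_PhiQ_eq_biEval₂ (P : Zb[X][X]) (z : FBar (M * q)) :
    (P.map (Polynomial.eval₂RingHom (iotaFB (M * q)) (mMid M q))).eval z =
      biEval₂ (iotaFB (M * q)) P z (mMid M q) := by
  rw [Polynomial.eval_map, biEval₂]

/-- the series of a bivariate value at `(x, j_q)` -/
theorem coe_biEval₂_xMid (P : Zb[X][X]) :
    ((biEval₂ (iotaFB (M * q)) P (xMid M q) (mMid M q) : FBar (M * q)) : LaurentSeries Qb) =
      coeffMap (Fermat.Agent.S18lib.Gink.intToQbar : Zb →+* Qb)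
        (P.eval₂ (evalJ Zb (qExpand Zb q (jqModC Zb))) (jqModC Zb)) := by
  have h1 := map_biEval₂ ((modularFunctionFieldBar (M * q)).val : FBar (M * q) →+* LaurentSeries Qb)
    (iotaFB (M * q)) P (xMid M q) (mMid M q)
  rw [val_comp_iotaFB] at h1
  have e1 : ((modularFunctionFieldBar (M * q)).val : FBar (M * q) →+* LaurentSeries Qb) (xMid M q) =
      jqModC Qb := coe_xMid M q
  have e2 : ((modularFunctionFieldBar (M * q)).val : FBar (M * q) →+* LaurentSeries Qb) (mMid M q) =
      qExpand Qb q (jqModC Qb) := coe_mMid M q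
  rw [e1, e2] at h1
  rw [coeffMap_eval₂_evalJ_eq_biEval₂, coeffMap_jqModC, coeffMap_qExpand, coeffMap_jqModC]
  exact h1

/-- `x = j(t)` is a root of `Φ_q(X; j(t^q))` -/
theorem PhiQ_isRoot : (PhiQ M q).IsRoot (xMid M q) := by
  show (PhiQ M q).eval (xMid M q) = 0
  rw [PhiQ, phiAt]
  have h0 : jd (M * q) q (Dvd.intro_left M rfl) = mMid M q := rfl
  rw [h0, eval_PhiQ_eq_biEval₂]
  apply Subtype.ext
  rw [coe_biEval₂_xMid, phiZ_eval₂_swap, map_zero]
  rfl

/-- `∂_XΦ_q(x; j_q) = q · G` in `FBar (M q)`, as series -/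
theorem coe_derivative_PhiQ_eval :
    (((Polynomial.derivative (PhiQ M q)).eval (xMid M q) : FBar (M * q)) : LaurentSeries Qb) =
      ((q : ℕ) : LaurentSeries Qb) *
        coeffMap (Fermat.Agent.S18lib.Gink.intToQbar : Zb →+* Qb) (dXG q) := by
  rw [PhiQ, phiAt, Polynomial.derivative_map]
  have h0 : jd (M * q) q (Dvd.intro_left M rfl) = mMid M q := rfl
  rw [h0, eval_PhiQ_eq_biEval₂, coe_biEval₂_xMid]
  have := dXPhi_eq q
  rw [dXPhi] at this
  rw [this, map_mul, map_natCast]

/-! ### the root `y` along `α` -/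

theorem alphaR_eq_alphaL :
    alphaR M q = ((alphaL (M * q) q : FBar (M * q) →ₐ[Qb] FBar (M * q * q)) :
      FBar (M * q) →+* FBar (M * q * q)) := by
  refine RingHom.ext fun f => Subtype.ext ?_
  show ((heckeAlphaBar Qb (M * q) q f : FBar (M * q * q)) : LaurentSeries Qb) =
    ((alphaL (M * q) q f : FBar (M * q * q)) : LaurentSeries Qb)
  rw [coe_heckeAlphaBar, coe_inclL]

/-- `y = j(t^(q²))` is a root of `Φ_q(X; j(t^q))` along `α` -/
theorem PhiQ_eval₂_yTop : (PhiQ M q).eval₂ (alphaR M q) (yTop M q) = 0 := by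
  rw [alphaR_eq_alphaL, PhiQ]
  exact phiAt_eval₂ (M * q) q q (Dvd.intro_left M rfl)

theorem coe_alphaR (f : FBar (M * q)) :
    ((alphaR M q f : FBar (M * q * q)) : LaurentSeries Qb) = (f : LaurentSeries Qb) :=
  coe_heckeAlphaBar (M * q) q f

theorem coe_yTop :
    ((yTop M q : FBar (M * q * q)) : LaurentSeries Qb) = qExpand Qb (q * q) (jqModC Qb) := by
  rw [yTop, coe_jd_eq]

/-- `y ≠ α x` -/
theorem yTop_ne_alphaR_xMid : yTop M q ≠ alphaR M q (xMid M q) := by
  intro h
  have h1 := congrArg (fun f : FBar (M * q * q) => (f : LaurentSeries Qb)) h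
  simp only [coe_alphaR, coe_xMid, coe_yTop] at h1
  have ho := congrArg HahnSeries.order h1
  rw [order_qExpand, order_jqModC] at ho
  have hq2 : 2 ≤ q := hqF.out.two_le
  have : (2 : ℤ) ≤ (q : ℤ) := by exact_mod_cast hq2
  push_cast at ho
  nlinarith

/-- the quotient `Φ_q(X; j_q) / (X − x)`: the minimal polynomial of `y` over `α (FBar (M q))` -/
def QtF : (FBar (M * q))[X] := PhiQ M q /ₘ (X - C (xMid M q))

/-- **the Eisenstein polynomial** of `ϖ = y − α x` over `FBar (M q)` -/
def QF : (FBar (M * q))[X] := quotShift (PhiQ M q) (xMid M q)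

theorem QF_eq : QF M q = (QtF M q).comp (X + C (xMid M q)) := rfl

theorem QtF_monic : (QtF M q).Monic := divByMonic_monic (PhiQ_monic M q) (PhiQ_isRoot M q)

theorem QtF_natDegree : (QtF M q).natDegree = q := by
  have h := natDegree_divByMonic_of_isRoot (PhiQ_monic M q) (PhiQ_isRoot M q)
  rw [PhiQ_natDegree] at h
  exact Nat.succ_injective h

theorem QF_monic : (QF M q).Monic := quotShift_monic (PhiQ_monic M q) (PhiQ_isRoot M q)

theorem QF_natDegree : (QF M q).natDegree = q := by
  have h := natDegree_quotShift (PhiQ_monic M q) (PhiQ_isRoot M q)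
  rw [PhiQ_natDegree] at h
  exact Nat.succ_injective h

/-- a monic polynomial of degree `q + 1` with the roots `x` and (along `α`) `y` has the same
quotient by `X − x` as `Φ_q(X; j_q)` -/
theorem divByMonic_eq_QtF (hqM : ¬ q ∣ M) {P : (FBar (M * q))[X]} (hP : P.Monic)
    (hdeg : P.natDegree = q + 1) (hx : P.IsRoot (xMid M q))
    (hy : P.eval₂ (alphaR M q) (yTop M q) = 0) : P /ₘ (X - C (xMid M q)) = QtF M q := by
  have key : ∀ {P : (FBar (M * q))[X]}, P.Monic → P.IsRoot (xMid M q) →
      P.eval₂ (alphaR M q) (yTop M q) = 0 →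
      (P /ₘ (X - C (xMid M q))).eval₂ (alphaR M q) (yTop M q) = 0 := by
    intro P hP hx hy
    have h := congrArg (Polynomial.eval₂ (alphaR M q) (yTop M q)) (mul_divByMonic_eq_of_isRoot hx)
    rw [Polynomial.eval₂_mul, hy, Polynomial.eval₂_sub, Polynomial.eval₂_X, Polynomial.eval₂_C] at h
    rcases mul_eq_zero.mp h with h0 | h0
    · exact absurd (sub_eq_zero.mp h0) (yTop_ne_alphaR_xMid M q)
    · exact h0
  have h1 := key hP hx hy
  have h2 := key (PhiQ_monic M q) (PhiQ_isRoot M q) (PhiQ_eval₂_yTop M q)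
  have hm1 : (P /ₘ (X - C (xMid M q))).Monic := divByMonic_monic hP hx
  have hd1 : (P /ₘ (X - C (xMid M q))).natDegree = q := by
    have h := natDegree_divByMonic_of_isRoot hP hx
    rw [hdeg] at h
    exact Nat.succ_injective h
  have hsub : P /ₘ (X - C (xMid M q)) - QtF M q = 0 := by
    apply eq_zero_of_eval₂_alpha M q hqF.out hqM
    · have hdlt : (P /ₘ (X - C (xMid M q)) - QtF M q).degree < (q : WithBot ℕ) := by
        have hdd : (P /ₘ (X - C (xMid M q))).degree = (QtF M q).degree := by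
          rw [Polynomial.degree_eq_natDegree hm1.ne_zero,
            Polynomial.degree_eq_natDegree (QtF_monic M q).ne_zero, hd1, QtF_natDegree]
        have hll : (P /ₘ (X - C (xMid M q))).leadingCoeff = (QtF M q).leadingCoeff := by
          rw [hm1.leadingCoeff, (QtF_monic M q).leadingCoeff]
        have := Polynomial.degree_sub_lt_left hdd hm1.ne_zero hll
        rwa [Polynomial.degree_eq_natDegree hm1.ne_zero, hd1] at this
      by_cases h0 : P /ₘ (X - C (xMid M q)) - QtF M q = 0
      · rw [h0, natDegree_zero]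
        exact hqF.out.pos
      · exact (natDegree_lt_iff_degree_lt h0).mpr hdlt
    · rw [Polynomial.eval₂_sub, h1]
      have : (QtF M q).eval₂ (alphaR M q) (yTop M q) = 0 := h2
      rw [this, sub_zero]
  exact sub_eq_zero.mp hsub

/-- the coefficientwise Galois action on `FBar N` as a ring homomorphism -/
abbrev galR (N : ℕ) (σ : GQ) : FBar N →+* FBar N :=
  ((arithmeticRingAut (modularFunctionFieldFull N) σ : FBar N ≃+* FBar N) : FBar N →+* FBar N)

theorem galR_alphaR (σ : GQ) (f : FBar (M * q)) :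
    galR (M * q * q) σ (alphaR M q f) = alphaR M q (galR (M * q) σ f) :=
  Subtype.ext (by
    show coeffMap (σ : Qb →+* Qb) ((alphaR M q f : FBar (M * q * q)) : LaurentSeries Qb) =
      ((alphaR M q (galR (M * q) σ f) : FBar (M * q * q)) : LaurentSeries Qb)
    rw [coe_alphaR, coe_alphaR]
    rfl)

/-- **the Eisenstein polynomial has Galois-fixed coefficients** (uniqueness of the minimal
polynomial of `y`) -/
theorem QF_map_galR (hqM : ¬ q ∣ M) (σ : GQ) : (QF M q).map (galR (M * q) σ) = QF M q := by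
  have hx : galR (M * q) σ (xMid M q) = xMid M q :=
    arithmeticRingAut_jd (M * q) 1 (one_dvd _) σ
  have hy : galR (M * q * q) σ (yTop M q) = yTop M q :=
    arithmeticRingAut_jd (M * q * q) (q * q) (Dvd.intro_left M (Nat.mul_assoc M q q).symm) σ
  rw [QF, quotShift_map, hx, quotShift]
  have hdiv : (PhiQ M q).map (galR (M * q) σ) /ₘ (X - C (xMid M q)) = QtF M q := by
    apply divByMonic_eq_QtF M q hqM ((PhiQ_monic M q).map _)
    · rw [(PhiQ_monic M q).natDegree_map, PhiQ_natDegree]
    · show ((PhiQ M q).map (galR (M * q) σ)).eval (xMid M q) = 0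
      conv_lhs => rw [← hx]
      rw [Polynomial.eval_map, Polynomial.eval₂_hom]
      have : (PhiQ M q).eval (xMid M q) = 0 := PhiQ_isRoot M q
      rw [this, map_zero]
    · rw [Polynomial.eval₂_map]
      have h1 := Polynomial.hom_eval₂ (PhiQ M q) (alphaR M q) (galR (M * q * q) σ) (yTop M q)
      rw [PhiQ_eval₂_yTop, map_zero, hy] at h1
      have h2 : (galR (M * q * q) σ).comp (alphaR M q) = (alphaR M q).comp (galR (M * q) σ) :=
        RingHom.ext fun f => galR_alphaR M q σ f
      rw [h2] at h1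
      exact h1.symm
  rw [hdiv]
  rfl

theorem QF_coeff_fixed (hqM : ¬ q ∣ M) (σ : GQ) (i : ℕ) :
    galAutBar (M * q) σ • (QF M q).coeff i = (QF M q).coeff i := by
  have h := congrArg (fun P : (FBar (M * q))[X] => P.coeff i) (QF_map_galR M q hqM σ)
  simp only [Polynomial.coeff_map] at h
  exact h

/-- `ϖ = y − α x` is a root of `QF` along `α` -/
theorem QF_eval₂ :
    (QF M q).eval₂ (alphaR M q) (yTop M q - alphaR M q (xMid M q)) = 0 := by
  letI : Algebra (FBar (M * q)) (FBar (M * q * q)) := (alphaR M q).toAlgebra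
  exact aeval_sub_quotShift (PhiQ_isRoot M q) (PhiQ_eval₂_yTop M q) (yTop_ne_alphaR_xMid M q)

/-- the constant coefficient is `∂_XΦ_q(x; j_q)` -/
theorem QF_coeff_zero : (QF M q).coeff 0 = (Polynomial.derivative (PhiQ M q)).eval (xMid M q) :=
  quotShift_coeff_zero (PhiQ_isRoot M q)

end Level

/-! ### integrality and reduction of the Eisenstein polynomial -/

section Datum

variable {M q : ℕ} [NeZero M] [NeZero q] [hqF : Fact q.Prime]
variable {A : ValuationSubring Qb} {M' : ℕ}

local notation "kA" => IsLocalRing.ResidueField A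

/-- a Gauss datum on `FBar N` with coefficientwise reduction (`Old.IsGaussOne`, helper9's
`levelDatum`, `gaussInf₂`) -/
structure IsCoeffDatum {N : ℕ} [NeZero N] (D : GaussDatum A (FBar N) (FRes A M')) : Prop where
  mem : ∀ (y : LaurentSeries A) (hy : toL A y ∈ modularFunctionFieldBar N),
    (⟨toL A y, hy⟩ : FBar N) ∈ D.O
  red : ∀ (y : LaurentSeries A) (hy : toL A y ∈ modularFunctionFieldBar N),
    ((D.redF (⟨toL A y, hy⟩ : FBar N) : FRes A M') : LaurentSeries kA) = toK A y

theorem IsCoeffDatum.isInfDatum {N : ℕ} [NeZero N] {D : GaussDatum A (FBar N) (FRes A M')}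
    (h : IsCoeffDatum D) : IsInfDatum D :=
  isInfDatum_of_coe D h.mem h.red

section General

variable {N : ℕ} [NeZero N] {D : GaussDatum A (FBar N) (FRes A M')} (hD : IsCoeffDatum D)

include hD in
theorem jd_mem_O (d : ℕ) [NeZero d] (hd : d ∣ N) : jd N d hd ∈ D.O := by
  rw [← elemL_jI A N d hd]
  exact hD.mem _ _

include hD in
theorem coe_redF_jd (d : ℕ) [NeZero d] (hd : d ∣ N) :
    ((D.redF (jd N d hd) : FRes A M') : LaurentSeries kA) = qExpand kA d (jqModC kA) := by
  rw [← elemL_jI A N d hd]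
  have := hD.red (jqNModC A d) (jI A N d hd).2.1
  rw [← coe_elemK_jI A N d hd]
  exact this

theorem iotaFB_mem_O (c : Zb) : iotaFB N c ∈ D.O :=
  D.algebraMap_mem (Gink.intToA A c)

theorem redF_iotaFB (c : Zb) :
    D.redF (iotaFB N c) = algebraMap kA (FRes A M') (Gink.iotaA A c) :=
  D.redF_algebraMap (Gink.intToA A c)

end General

variable (D1 : GaussDatum A (FBar (M * q)) (FRes A M')) (hD : IsCoeffDatum D1)
  (hA : A.LiesOverPrime q)

/-- the algebraic integers in `D1.O` -/
def iotaT : Zb →+* D1.O :=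
  RingHom.codRestrict (iotaFB (M * q)) D1.O (fun c => iotaFB_mem_O c)

/-- `x = j(t)` in `D1.O` -/
def xT : D1.O := ⟨xMid M q, jd_mem_O hD 1 (one_dvd _)⟩

/-- `j(t^q)` in `D1.O` -/
def mT : D1.O := ⟨mMid M q, jd_mem_O hD q (Dvd.intro_left M rfl)⟩

/-- `Φ_q(X; j_q)` over `D1.O` -/
def PhiT : D1.O[X] := (phiZ q).map (Polynomial.eval₂RingHom (iotaT D1) (mT D1 hD))

/-- the Eisenstein polynomial over `D1.O` -/
def QT : D1.O[X] := quotShift (PhiT D1 hD) (xT D1 hD)

theorem PhiT_map_subtype : (PhiT D1 hD).map D1.O.subtype = PhiQ M q := by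
  rw [PhiT, Polynomial.map_map, comp_eval₂RingHom, PhiQ, phiAt]
  rfl

theorem QT_map_subtype : (QT D1 hD).map D1.O.subtype = QF M q := by
  rw [QT, quotShift_map, PhiT_map_subtype]
  rfl

include hD in
/-- the coefficients of the Eisenstein polynomial lie in `D1.O` -/
theorem QF_coeff_mem (i : ℕ) : (QF M q).coeff i ∈ D1.O := by
  rw [← QT_map_subtype D1 hD, Polynomial.coeff_map]
  exact ((QT D1 hD).coeff i).2

theorem redF_QF_coeff (i : ℕ) :
    D1.redF ((QF M q).coeff i) = ((QT D1 hD).map D1.red).coeff i := by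
  have h : (QF M q).coeff i = (((QT D1 hD).coeff i : D1.O) : FBar (M * q)) := by
    rw [← QT_map_subtype D1 hD, Polynomial.coeff_map]
    rfl
  rw [h, D1.redF_of_mem ((QT D1 hD).coeff i).2, Polynomial.coeff_map]

/-- the reduction of `x = j(t)` -/
def xBar : FRes A M' := D1.red (xT D1 hD)

theorem coe_xBar : ((xBar D1 hD : FRes A M') : LaurentSeries kA) = jqModC kA := by
  have h := coe_redF_jd hD 1 (one_dvd (M * q))
  rw [qExpand_one_apply] at h
  rw [← h, xBar, xT, D1.redF_of_mem]
  rfl

include hA in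
theorem red_mT : D1.red (mT D1 hD) = xBar D1 hD ^ q := by
  haveI : CharP kA q := Gink.charP_kRes (A := A) hA
  apply Subtype.ext
  have h := coe_redF_jd hD q (Dvd.intro_left M rfl)
  rw [D1.redF_of_mem (jd_mem_O hD q (Dvd.intro_left M rfl))] at h
  rw [IntermediateField.coe_pow, coe_xBar, jqModC_pow_char q]
  exact h

include hA in
theorem charP_FRes : CharP (FRes A M') q := by
  haveI : CharP kA q := Gink.charP_kRes (A := A) hA
  exact charP_of_injective_algebraMap (algebraMap kA (FRes A M')).injective q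

include hA in
/-- **Kronecker shape of the reduction** -/
theorem QT_map_red :
    (QT D1 hD).map D1.red =
      X ^ (q - 1) * (X + C (xBar D1 hD - (xBar D1 hD ^ q) ^ q)) := by
  haveI : CharP (FRes A M') q := charP_FRes hA
  rw [QT, quotShift_map, PhiT, Polynomial.map_map, comp_eval₂RingHom, red_mT D1 hD hA,
    phiZ_map_char q]
  exact quotShift_of_char q (xBar D1 hD) ((xBar D1 hD ^ q) ^ q)

theorem xBar_sub_ne_zero : xBar D1 hD - (xBar D1 hD ^ q) ^ q ≠ 0 := by
  intro h
  have h1 := congrArg (Subtype.val : FRes A M' → LaurentSeries kA) h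
  rw [← pow_mul] at h1
  have h2 : jqModC kA - jqModC kA ^ (q * q) = 0 := by
    rw [← coe_xBar D1 hD]
    exact h1
  have ho := congrArg HahnSeries.order (sub_eq_zero.mp h2)
  rw [order_jqModC, order_jqModC_pow] at ho
  have hq2 : 2 ≤ q := hqF.out.two_le
  have : (2 : ℤ) ≤ (q : ℤ) := by exact_mod_cast hq2
  push_cast at ho
  nlinarith

include hD hA in
/-- the middle coefficients reduce to `0` -/
theorem redF_QF_coeff_of_lt {i : ℕ} (hi : i < q - 1) : D1.redF ((QF M q).coeff i) = 0 := by
  rw [redF_QF_coeff D1 hD, QT_map_red D1 hD hA, Polynomial.coeff_X_pow_mul', if_neg (by omega)]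

include hA in
/-- the coefficient of `X ^ (q - 1)` reduces to `x̄ − x̄^(q²) ≠ 0` -/
theorem redF_QF_coeff_pred :
    D1.redF ((QF M q).coeff (q - 1)) = xBar D1 hD - (xBar D1 hD ^ q) ^ q := by
  rw [redF_QF_coeff D1 hD, QT_map_red D1 hD hA, Polynomial.coeff_X_pow_mul', if_pos le_rfl,
    Nat.sub_self, Polynomial.coeff_add, Polynomial.coeff_X_zero, Polynomial.coeff_C_zero, zero_add]

/-! ### the constant coefficient -/

/-- the integral series `G = ∂_XΦ_q(x; j_q) / q` -/
def GA (A : ValuationSubring Qb) (q : ℕ) [Fact q.Prime] [NeZero q] : LaurentSeries A :=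
  coeffMap (Gink.intToA A) (dXG q)

theorem toL_GA :
    toL A (GA A q) = coeffMap (Fermat.Agent.S18lib.Gink.intToQbar : Zb →+* Qb) (dXG q) := by
  rw [GA, toL, coeffMap_coeffMap]
  rfl

include hA in
theorem toK_GA_ne_zero : toK A (GA A q) ≠ 0 := by
  haveI : CharP kA q := Gink.charP_kRes (A := A) hA
  rw [GA, toK, coeffMap_coeffMap]
  exact coeffMap_dXG_ne_zero q _

variable (M) in
theorem coe_QF_coeff_zero :
    (((QF M q).coeff 0 : FBar (M * q)) : LaurentSeries Qb) =
      ((q : ℕ) : LaurentSeries Qb) * toL A (GA A q) := by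
  rw [QF_coeff_zero, coe_derivative_PhiQ_eval, toL_GA]

variable (M) in
theorem toL_GA_mem : toL A (GA A q) ∈ modularFunctionFieldBar (M * q) := by
  have hq0 : ((q : ℕ) : LaurentSeries Qb) ≠ 0 := by
    have : ((q : ℕ) : Qb) ≠ 0 := by exact_mod_cast hqF.out.ne_zero
    exact natCast_laurent_ne_zero this
  have h : toL A (GA A q) =
      (((QF M q).coeff 0 * (((q : ℕ) : FBar (M * q)))⁻¹ : FBar (M * q)) : LaurentSeries Qb) := by
    rw [IntermediateField.coe_mul, IntermediateField.coe_inv, coe_QF_coeff_zero M (A := A)]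
    have : ((((q : ℕ) : FBar (M * q)) : FBar (M * q)) : LaurentSeries Qb) =
        ((q : ℕ) : LaurentSeries Qb) := by
      simp
    rw [this]
    field_simp
  rw [h]
  exact ((QF M q).coeff 0 * (((q : ℕ) : FBar (M * q)))⁻¹).2

/-- `G = ∂_XΦ_q(x; j_q) / q` as an element of `FBar (M q)` -/
def Gf (M q : ℕ) [NeZero M] [NeZero q] [Fact q.Prime] (A : ValuationSubring Qb) : FBar (M * q) :=
  ⟨toL A (GA A q), toL_GA_mem M⟩

variable (M) in
/-- **(m3)**: the constant coefficient of the Eisenstein polynomial is `q · G` -/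
theorem QF_coeff_zero_eq : (QF M q).coeff 0 = ((q : ℕ) : FBar (M * q)) * Gf M q A := by
  apply Subtype.ext
  rw [IntermediateField.coe_mul, coe_QF_coeff_zero M (A := A)]
  congr 1

include hD hA in
/-- `G` is a unit of `D1.O`: nonzero reduction -/
theorem redF_Gf_ne_zero : D1.redF (Gf M q A) ≠ 0 :=
  hD.isInfDatum.red _ _ (toK_GA_ne_zero hA)

end Datum

end Fermat.Agent.S36lib.Eis
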