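/-
S36lib / Eis / Inst  (helper2)

**The Eisenstein datum of the middle valuation `v_b = v₁₁` at level `M q²`.**

Context `EisCtx`: `A ∣ q`, `H ⊇ I_A`, `D1` a Gauss datum of level `M q` with coefficientwise reduction
(e.g. LSb `gaussOne`).  Then
* `R := RK H D1 = D1.O ∩ fixF (M q) H` is a discrete valuation ring (uniformizer `q`);
* `F := fixF (M q q) H` is an `R`-algebra through helper7's `alphaFix`;
* `eisData : EisData R F` with `ϖ = j(t^(q²)) − j(t)`, `e = q − 1`, `Q = ` the `R`-form of `Eis.QF`.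
Exports: `Ob : ValuationSubring (fixF (M q q) H)`, `redB : Ob →+* FRes A M'`, the normal form
`f = ϖ ^ n · unit`, `ϖ ^ (q − 1) = q · unit`, and the table along `α`.
-/
import Mathlib
import Fermat.Agent.S36lib.Eis.Local
import Fermat.Agent.S36lib.Eis.Poly
import Fermat.Agent.S36lib.Norm.DescendInst

set_option autoImplicit false
set_option linter.unusedSectionVars false
set_option linter.unusedVariables false
set_option linter.style.haveILetI false

noncomputable section

namespace Fermat.Agent.S36lib.Eis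

open ModularCurve Polynomial Fermat.Agent.S18lib Fermat.Agent.S18lib.V Fermat.Agent.S28lib
open Fermat.Agent.LSb.Val Fermat.Agent.S36lib.AL Fermat.Agent.S37lib.ConjNorm
open Fermat.Agent.S29lib.GH Fermat.Agent.S36lib.Desc2 Fermat.Agent.S36lib.Desc
open Fermat.Agent.S36lib.Norm

local notation "Qb" => AlgebraicClosure ℚ
local notation "GQ" => (AlgebraicClosure ℚ ≃ₐ[ℚ] AlgebraicClosure ℚ)

/-- the context of the Eisenstein instance -/
structure EisCtx (M q : ℕ) [NeZero M] [NeZero q] (A : ValuationSubring Qb) (H : Subgroup GQ)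
    (M' : ℕ) where
  hqM : ¬ q ∣ M
  hA : A.LiesOverPrime q
  hH : A.inertiaSubgroupIn ℚ ≤ H
  /-- the Gauss datum `v₁₀` of level `M q` -/
  D1 : GaussDatum A (FBar (M * q)) (FRes A M')
  hD : IsCoeffDatum D1

namespace EisCtx

variable {M q : ℕ} [NeZero M] [NeZero q] [hqF : Fact q.Prime] {A : ValuationSubring Qb}
  {H : Subgroup GQ} {M' : ℕ} (C : EisCtx M q A H M')

/-- the base ring `R = D1.O ∩ fixF (M q) H` -/
abbrev R : Subring (FBar (M * q)) := RK H C.D1

instance instDVR : IsDiscreteValuationRing (RK H C.D1) :=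
  isDiscreteValuationRing_RK C.hD.isInfDatum hqF.out C.hA C.hH

/-- `R → fixF (M q) H` -/
def toFix : RK H C.D1 →+* fixF (M * q) H where
  toFun r := ⟨(r : FBar (M * q)), (mem_RK.mp r.2).2⟩
  map_one' := rfl
  map_mul' _ _ := rfl
  map_zero' := rfl
  map_add' _ _ := rfl

@[simp] theorem coe_toFix (r : RK H C.D1) : ((C.toFix r : fixF (M * q) H) : FBar (M * q)) = r := rfl

theorem toFix_injective : Function.Injective C.toFix := fun r s h =>
  Subtype.ext (congrArg (fun f : fixF (M * q) H => (f : FBar (M * q))) h)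

/-- the structure map `R → F = fixF (M q q) H` -/
def algR : RK H C.D1 →+* fixF (M * q * q) H := (alphaFix M q H).comp C.toFix

instance instAlgebra : Algebra (RK H C.D1) (fixF (M * q * q) H) := C.algR.toAlgebra

theorem algebraMap_eq (r : RK H C.D1) :
    algebraMap (RK H C.D1) (fixF (M * q * q) H) r = alphaFix M q H (C.toFix r) := rfl

theorem coe_algebraMap (r : RK H C.D1) :
    ((algebraMap (RK H C.D1) (fixF (M * q * q) H) r : fixF (M * q * q) H) : FBar (M * q * q)) =
      alphaR M q (r : FBar (M * q)) := rfl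

theorem algR_injective : Function.Injective C.algR :=
  (alphaFix M q H).injective.comp C.toFix_injective

instance instFaithfulSMul : FaithfulSMul (RK H C.D1) (fixF (M * q * q) H) :=
  (faithfulSMul_iff_algebraMap_injective _ _).mpr C.algR_injective

/-! ### the elements -/

/-- `x = j(t)` in `R` -/
def xK : RK H C.D1 :=
  ⟨xMid M q, mem_RK.mpr ⟨jd_mem_O C.hD 1 (one_dvd _), jd_mem_fixF H _ 1 (one_dvd _)⟩⟩

@[simp] theorem coe_xK : ((C.xK : RK H C.D1) : FBar (M * q)) = xMid M q := rfl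

/-- **the new uniformizer** `ϖ = j(t^(q²)) − j(t)` -/
def varpi : fixF (M * q * q) H :=
  yTopFix M q H - algebraMap (RK H C.D1) (fixF (M * q * q) H) C.xK

theorem coe_varpi :
    ((C.varpi : fixF (M * q * q) H) : FBar (M * q * q)) = yTop M q - alphaR M q (xMid M q) := rfl

theorem QF_coeff_mem_RK (i : ℕ) : (QF M q).coeff i ∈ RK H C.D1 :=
  mem_RK.mpr ⟨QF_coeff_mem C.D1 C.hD i,
    mem_fixF.mpr fun σ _ => QF_coeff_fixed M q C.hqM σ i⟩

theorem QF_coeffs_subset : (↑(QF M q).coeffs : Set (FBar (M * q))) ⊆ (RK H C.D1 : Set _) := by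
  intro c hc
  rw [Finset.mem_coe, Polynomial.mem_coeffs_iff] at hc
  obtain ⟨n, -, rfl⟩ := hc
  exact C.QF_coeff_mem_RK n

/-- the Eisenstein polynomial over `R` -/
def QK : (RK H C.D1)[X] := (QF M q).toSubring (RK H C.D1) C.QF_coeffs_subset

theorem QK_map : C.QK.map (RK H C.D1).subtype = QF M q := Polynomial.map_toSubring _ _ _

theorem coe_QK_coeff (i : ℕ) : ((C.QK.coeff i : RK H C.D1) : FBar (M * q)) = (QF M q).coeff i :=
  Polynomial.coeff_toSubring _ _ _

theorem QK_monic : C.QK.Monic := (Polynomial.monic_toSubring _ _ _).mpr (QF_monic M q)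

theorem QK_natDegree : C.QK.natDegree = (q - 1) + 1 := by
  rw [QK, Polynomial.natDegree_toSubring, QF_natDegree]
  have := hqF.out.pos
  omega

theorem redK_QK_coeff (i : ℕ) : redK H C.D1 (C.QK.coeff i) = C.D1.redF ((QF M q).coeff i) := by
  rw [redK_apply, coe_QK_coeff]

/-- `ϖ` is a root of `QK` -/
theorem QK_root : aeval C.varpi C.QK = 0 := by
  apply Subtype.ext
  have h1 := Polynomial.hom_eval₂ C.QK (algebraMap (RK H C.D1) (fixF (M * q * q) H))
    (fixF (M * q * q) H).subtype C.varpi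
  have h2 : ((fixF (M * q * q) H).subtype).comp (algebraMap (RK H C.D1) (fixF (M * q * q) H)) =
      (alphaR M q).comp (RK H C.D1).subtype := rfl
  rw [h2, ← Polynomial.eval₂_map, QK_map] at h1
  show (fixF (M * q * q) H).subtype (aeval C.varpi C.QK) = 0
  rw [Polynomial.aeval_def, h1]
  exact (congrArg (fun z => Polynomial.eval₂ (alphaR M q) z (QF M q)) C.coe_varpi).trans
    (QF_eval₂ M q)

/-! ### the Eisenstein conditions -/

theorem QK_lead : IsUnit (C.QK.coeff (q - 1)) := by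
  rw [isUnit_iff_redK_ne_zero C.hD.isInfDatum hqF.out C.hA C.hH, redK_QK_coeff,
    redF_QF_coeff_pred C.D1 C.hD C.hA]
  exact xBar_sub_ne_zero C.D1 C.hD

theorem QK_mid (i : ℕ) (hi : i < q - 1) : qK H C.D1 q ∣ C.QK.coeff i := by
  rw [← redK_eq_zero_iff C.hD.isInfDatum hqF.out C.hA C.hH, redK_QK_coeff]
  exact redF_QF_coeff_of_lt C.D1 C.hD C.hA hi

include C in
theorem Gf_mem_fixF : Gf M q A ∈ fixF (M * q) H := by
  have hq0 : ((q : ℕ) : FBar (M * q)) ≠ 0 := by exact_mod_cast hqF.out.ne_zero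
  have h : Gf M q A = (QF M q).coeff 0 * (((q : ℕ) : FBar (M * q)))⁻¹ := by
    rw [QF_coeff_zero_eq M (A := A)]
    field_simp
  rw [h]
  exact mul_mem (mem_RK.mp (C.QF_coeff_mem_RK 0)).2 (inv_mem (natCast_mem_fixF q))

include C in
theorem Gf_ne_zero : Gf M q A ≠ 0 := by
  intro h
  have := redF_Gf_ne_zero C.D1 C.hD C.hA
  rw [h, GaussDatum.redF_zero] at this
  exact this rfl

/-- `G` as a unit of `R` -/
def GK : (RK H C.D1)ˣ :=
  unitK (Gf M q A) (C.D1.mem_of_redF_ne_zero (redF_Gf_ne_zero C.D1 C.hD C.hA))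
    (C.D1.inv_mem_of_redF_ne_zero (redF_Gf_ne_zero C.D1 C.hD C.hA)) C.Gf_mem_fixF C.Gf_ne_zero

theorem QK_const : ∃ u : (RK H C.D1)ˣ, C.QK.coeff 0 = qK H C.D1 q * u := by
  refine ⟨C.GK, Subtype.ext ?_⟩
  rw [coe_QK_coeff, Subring.coe_mul, coe_qK, GK, coe_unitK]
  exact QF_coeff_zero_eq M

theorem varpi_not_mem :
    C.varpi ∉ Set.range (algebraMap (RK H C.D1) (fixF (M * q * q) H)) := by
  rintro ⟨r, hr⟩
  have h1 := congrArg (fun f : fixF (M * q * q) H => (f : FBar (M * q * q))) hr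
  simp only [coe_algebraMap, coe_varpi] at h1
  -- `y = α (x + r)`
  have h2 : yTop M q = alphaR M q ((r : FBar (M * q)) + xMid M q) := by
    rw [map_add, h1]
    ring
  have hq2 : 2 ≤ q := hqF.out.two_le
  have h3 : (X - Polynomial.C ((r : FBar (M * q)) + xMid M q) : (FBar (M * q))[X]) = 0 := by
    apply eq_zero_of_eval₂_alpha M q hqF.out C.hqM
    · rw [natDegree_X_sub_C]
      omega
    · rw [eval₂_sub, eval₂_X, eval₂_C, ← h2, sub_self]
  exact X_sub_C_ne_zero _ h3

/-! ### generation -/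

include C in
/-- `1, y, …, y^(q-1)` is a basis of `fixF (M q q) H` over `fixF (M q) H` along `alphaFix` -/
theorem isBasisAlong_alphaFix :
    IsBasisAlong (alphaFix M q H) (fun i : Fin q => yTopFix M q H ^ (i : ℕ)) := by
  have hψ : ∀ σ ∈ H, ∀ x : FBar (M * q),
      galAutBar (M * q * q) σ • alphaR M q x = alphaR M q (galAutBar (M * q) σ • x) :=
    fun σ _ x => intertwines_alpha (M * q) q σ x
  have hcomm : ∀ a : fixF (M * q) H,
      (fixF (M * q * q) H).subtype (alphaFix M q H a) = alphaR M q ((fixF (M * q) H).subtype a) :=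
    fun a => rfl
  have hb' : IsBasisAlong (alphaR M q)
      (fun i : Fin q => (fixF (M * q * q) H).subtype (yTopFix M q H ^ (i : ℕ))) := by
    have : (fun i : Fin q => (fixF (M * q * q) H).subtype (yTopFix M q H ^ (i : ℕ))) =
        fun i : Fin q => (yTop M q) ^ (i : ℕ) := by
      funext i
      exact map_pow _ _ _
    rw [this]
    exact isBasisAlong_alpha M q hqF.out C.hqM
  refine IsBasisAlong.descend (iA := (fixF (M * q) H).subtype)
    (iB := (fixF (M * q * q) H).subtype) hcomm hb' ?_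
  intro x c hc i
  have hfixA : ∀ a : FBar (M * q), (∀ σ : H, galRing (M * q) (σ : GQ) a = a) →
      ∃ a₀ : fixF (M * q) H, (fixF (M * q) H).subtype a₀ = a := by
    intro a ha
    refine ⟨⟨a, ?_⟩, rfl⟩
    rw [mem_fixF]
    intro σ hσ
    exact ha ⟨σ, hσ⟩
  have hfixB : ∀ (x : fixF (M * q * q) H) (σ : H),
      galRing (M * q * q) (σ : GQ) ((fixF (M * q * q) H).subtype x) =
        (fixF (M * q * q) H).subtype x :=
    fun x σ => mem_fixF.1 x.2 σ σ.2
  exact coord_mem_of_fixed (T := H) (fun σ => galRing (M * q) (σ : GQ))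
    (fun σ => galRing (M * q * q) (σ : GQ)) (fun σ a => hψ σ σ.2 a) hfixA hfixB hb' x c hc i

/-- denominators: a power of `q` moves a fixed function into `R` -/
theorem exists_pow_mul_mem_RK (c : fixF (M * q) H) :
    ∃ n : ℕ, ((q : ℕ) : FBar (M * q)) ^ n * (c : FBar (M * q)) ∈ RK H C.D1 := by
  by_cases hc : (c : FBar (M * q)) = 0
  · exact ⟨0, by rw [hc, mul_zero]; exact zero_mem _⟩
  · obtain ⟨m, u, hu⟩ := exists_qPow_mul_unit H C.D1 C.hD.isInfDatum.mem C.hD.isInfDatum.red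
      hqF.out C.hA C.hH (mem_fixF.mp c.2) hc
    have hq0 : ((q : ℕ) : FBar (M * q)) ≠ 0 := by exact_mod_cast hqF.out.ne_zero
    refine ⟨m.toNat, mem_RK.mpr ⟨?_, mul_mem (pow_mem (natCast_mem_fixF q) _) c.2⟩⟩
    have hle : m ≤ (m.toNat : ℤ) := Int.self_le_toNat m
    obtain ⟨k, hk⟩ := Int.eq_ofNat_of_zero_le (sub_nonneg.mpr hle)
    have h1 : ((q : ℕ) : FBar (M * q)) ^ m.toNat * (c : FBar (M * q)) =
        ((q : ℕ) : FBar (M * q)) ^ k * ((u : C.D1.O) : FBar (M * q)) := by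
      rw [← hu, qPow_eq, ← mul_assoc, ← zpow_natCast, ← zpow_natCast, ← zpow_add₀ hq0, ← hk]
      congr 2
      ring
    rw [h1]
    exact C.D1.O.mul_mem _ _ (C.D1.O.pow_mem (natCast_mem_O q) _) (u : C.D1.O).2

/-- the property "some nonzero multiple lies in `R[ϖ]`" -/
def InGen (f : fixF (M * q * q) H) : Prop :=
  ∃ r : RK H C.D1, r ≠ 0 ∧
    algebraMap (RK H C.D1) (fixF (M * q * q) H) r * f ∈ Algebra.adjoin (RK H C.D1) {C.varpi}

theorem inGen_zero : C.InGen 0 :=
  ⟨1, one_ne_zero, by rw [mul_zero]; exact zero_mem _⟩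

theorem inGen_add {f g : fixF (M * q * q) H} (hf : C.InGen f) (hg : C.InGen g) :
    C.InGen (f + g) := by
  obtain ⟨r, hr, hrf⟩ := hf
  obtain ⟨s, hs, hsg⟩ := hg
  refine ⟨r * s, mul_ne_zero hr hs, ?_⟩
  have h : algebraMap (RK H C.D1) (fixF (M * q * q) H) (r * s) * (f + g) =
      algebraMap (RK H C.D1) (fixF (M * q * q) H) s *
        (algebraMap (RK H C.D1) (fixF (M * q * q) H) r * f) +
      algebraMap (RK H C.D1) (fixF (M * q * q) H) r *
        (algebraMap (RK H C.D1) (fixF (M * q * q) H) s * g) := by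
    rw [map_mul]
    ring
  rw [h]
  exact add_mem (mul_mem (Subalgebra.algebraMap_mem _ _) hrf)
    (mul_mem (Subalgebra.algebraMap_mem _ _) hsg)

theorem yTopFix_eq :
    yTopFix M q H = C.varpi + algebraMap (RK H C.D1) (fixF (M * q * q) H) C.xK := by
  rw [varpi, sub_add_cancel]

theorem inGen_term (c : fixF (M * q) H) (i : ℕ) :
    C.InGen (alphaFix M q H c * yTopFix M q H ^ i) := by
  obtain ⟨n, hn⟩ := C.exists_pow_mul_mem_RK c
  have hq0 : qK H C.D1 q ≠ 0 := qK_ne_zero hqF.out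
  refine ⟨qK H C.D1 q ^ n, pow_ne_zero _ hq0, ?_⟩
  have h : algebraMap (RK H C.D1) (fixF (M * q * q) H) (qK H C.D1 q ^ n) *
      (alphaFix M q H c * yTopFix M q H ^ i) =
      algebraMap (RK H C.D1) (fixF (M * q * q) H) ⟨_, hn⟩ *
        (C.varpi + algebraMap (RK H C.D1) (fixF (M * q * q) H) C.xK) ^ i := by
    rw [← C.yTopFix_eq, ← mul_assoc]
    congr 1
  rw [h]
  exact mul_mem (Subalgebra.algebraMap_mem _ _)
    (pow_mem (add_mem (Algebra.self_mem_adjoin_singleton _ _) (Subalgebra.algebraMap_mem _ _)) _)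

/-- **`F = Frac(R)(ϖ)`** in the form needed by `EisData.gen` -/
theorem varpi_gen (f : fixF (M * q * q) H) : C.InGen f := by
  obtain ⟨c, hc, -⟩ := C.isBasisAlong_alphaFix f
  rw [hc]
  refine Finset.sum_induction _ C.InGen (fun _ _ => C.inGen_add) C.inGen_zero ?_
  intro i _
  exact C.inGen_term (c i) i

/-! ### the Eisenstein datum -/

/-- **the Eisenstein datum of `v_b`** -/
def eisData : EisData (RK H C.D1) (fixF (M * q * q) H) where
  π := qK H C.D1 q
  irr := irreducible_qK C.hD.isInfDatum hqF.out C.hA C.hH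
  ϖ := C.varpi
  e := q - 1
  Q := C.QK
  monic := C.QK_monic
  natDegree_eq := C.QK_natDegree
  root := C.QK_root
  lead := C.QK_lead
  mid := C.QK_mid
  const := C.QK_const
  not_mem := C.varpi_not_mem
  gen := C.varpi_gen

/-- **the valuation ring of `v_b = v₁₁`** on `fixF (M q q) H` -/
abbrev Ob : ValuationSubring (fixF (M * q * q) H) := C.eisData.O

theorem varpi_mem : C.varpi ∈ C.Ob := C.eisData.ϖ_mem

theorem varpi_ne_zero : C.varpi ≠ 0 := C.eisData.ϖ_ne_zero

theorem varpi_inv_not_mem : C.varpi⁻¹ ∉ C.Ob := C.eisData.ϖ_inv_not_mem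

/-- **`v_b` is discrete with uniformizer `ϖ`** -/
theorem exists_zpow_mul_unit_Ob {f : fixF (M * q * q) H} (hf : f ≠ 0) :
    ∃ (n : ℤ) (u : C.Obˣ), f = C.varpi ^ n * ((u : C.Ob) : fixF (M * q * q) H) :=
  C.eisData.exists_zpow_mul_unit hf

/-- **`ϖ ^ (q − 1) = q · unit`** -/
theorem varpi_pow :
    ∃ u : C.Obˣ, C.varpi ^ (q - 1) =
      ((q : ℕ) : fixF (M * q * q) H) * ((u : C.Ob) : fixF (M * q * q) H) := by
  obtain ⟨u, hu⟩ := C.eisData.exists_unit
  refine ⟨u, ?_⟩
  have h : algebraMap (RK H C.D1) (fixF (M * q * q) H) (qK H C.D1 q) =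
      ((q : ℕ) : fixF (M * q * q) H) := map_natCast _ q
  rw [← h]
  exact hu

theorem zpow_mul_unit_mem_Ob_iff (n : ℤ) (u : C.Obˣ) :
    C.varpi ^ n * ((u : C.Ob) : fixF (M * q * q) H) ∈ C.Ob ↔ 0 ≤ n :=
  C.eisData.zpow_mul_unit_mem_iff n u

/-- the residue map of `R` into `FRes A M'` -/
def resK : IsLocalRing.ResidueField (RK H C.D1) →+* FRes A M' :=
  haveI : IsLocalHom (redK H C.D1) := isLocalHom_redK C.hD.isInfDatum hqF.out C.hA C.hH
  IsLocalRing.ResidueField.lift (redK H C.D1)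

theorem resK_residue (r : RK H C.D1) :
    C.resK (IsLocalRing.residue (RK H C.D1) r) = redK H C.D1 r := by
  haveI : IsLocalHom (redK H C.D1) := isLocalHom_redK C.hD.isInfDatum hqF.out C.hA C.hH
  exact IsLocalRing.ResidueField.lift_residue_apply (redK H C.D1) r

/-- **the reduction map of `v_b`** with values in the residue field of `v₁₀` -/
def redB : C.Ob →+* FRes A M' := C.resK.comp C.eisData.red

theorem redB_varpi : C.redB ⟨C.varpi, C.varpi_mem⟩ = 0 := by
  rw [redB, RingHom.comp_apply]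
  have := C.eisData.red_ϖ
  rw [show (⟨C.varpi, C.varpi_mem⟩ : C.Ob) = ⟨C.eisData.ϖ, C.eisData.ϖ_mem⟩ from rfl, this,
    map_zero]

theorem redB_eq_zero_iff (x : C.Ob) :
    C.redB x = 0 ↔ ∃ y : C.Ob, (x : fixF (M * q * q) H) = C.varpi * (y : fixF (M * q * q) H) := by
  rw [redB, RingHom.comp_apply, map_eq_zero_iff _ C.resK.injective]
  exact C.eisData.red_eq_zero_iff x

/-! ### the table along `α` -/

theorem algebraMap_mem_Ob (r : RK H C.D1) :
    algebraMap (RK H C.D1) (fixF (M * q * q) H) r ∈ C.Ob := C.eisData.algebraMap_mem r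

theorem redB_algebraMap (r : RK H C.D1) :
    C.redB ⟨algebraMap (RK H C.D1) (fixF (M * q * q) H) r, C.algebraMap_mem_Ob r⟩ =
      C.D1.redF (r : FBar (M * q)) := by
  rw [redB, RingHom.comp_apply]
  have := C.eisData.red_algebraMap r
  rw [show (⟨algebraMap (RK H C.D1) (fixF (M * q * q) H) r, C.algebraMap_mem_Ob r⟩ : C.Ob) =
    ⟨algebraMap (RK H C.D1) (fixF (M * q * q) H) r, C.eisData.algebraMap_mem r⟩ from rfl, this,
    resK_residue, redK_apply]

/-- **`O_b ∩ α (fixF (M q)) = O₁₀`** -/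
theorem alphaFix_mem_Ob_iff (f : fixF (M * q) H) :
    alphaFix M q H f ∈ C.Ob ↔ (f : FBar (M * q)) ∈ C.D1.O := by
  constructor
  · intro h
    by_contra hf
    -- `f⁻¹ ∈ 𝔪_{O₁₀}`, so `α f⁻¹ ∈ ϖ O_b`, contradiction
    have hf0 : (f : FBar (M * q)) ≠ 0 := by
      rintro h0
      exact hf (by rw [h0]; exact zero_mem _)
    have hfi : ((f : FBar (M * q)))⁻¹ ∈ C.D1.O :=
      (C.D1.O.mem_or_inv_mem _).resolve_left hf
    have hred : C.D1.redF ((f : FBar (M * q)))⁻¹ = 0 := by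
      by_contra hne
      have := C.D1.inv_mem_of_redF_ne_zero hne
      rw [inv_inv] at this
      exact hf this
    set r : RK H C.D1 := ⟨((f : FBar (M * q)))⁻¹, mem_RK.mpr ⟨hfi, inv_mem f.2⟩⟩ with hr
    have h1 : C.redB ⟨algebraMap (RK H C.D1) (fixF (M * q * q) H) r, C.algebraMap_mem_Ob r⟩ = 0 := by
      rw [redB_algebraMap]
      exact hred
    rw [redB_eq_zero_iff] at h1
    obtain ⟨y, hy⟩ := h1
    have h2 : algebraMap (RK H C.D1) (fixF (M * q * q) H) r * alphaFix M q H f = 1 := by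
      apply Subtype.ext
      show alphaR M q ((f : FBar (M * q)))⁻¹ * alphaR M q (f : FBar (M * q)) = 1
      rw [← map_mul, inv_mul_cancel₀ hf0, map_one]
    apply C.varpi_inv_not_mem
    have h3 : C.varpi⁻¹ = (y : fixF (M * q * q) H) * alphaFix M q H f := by
      have hv := C.varpi_ne_zero
      have h4 : C.varpi * ((y : fixF (M * q * q) H) * alphaFix M q H f) = 1 := by
        rw [← mul_assoc]
        change (C.varpi * (y : fixF (M * q * q) H)) * alphaFix M q H f = 1
        rw [← hy]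
        exact h2
      exact (eq_inv_of_mul_eq_one_right h4).symm ▸ rfl
    rw [h3]
    exact C.Ob.mul_mem _ _ y.2 h
  · intro h
    exact C.algebraMap_mem_Ob ⟨(f : FBar (M * q)), mem_RK.mpr ⟨h, f.2⟩⟩

/-- **`red_b ∘ α = red₁₀`** -/
theorem redB_alphaFix (f : fixF (M * q) H) (hf : (f : FBar (M * q)) ∈ C.D1.O) :
    C.redB ⟨alphaFix M q H f, (C.alphaFix_mem_Ob_iff f).mpr hf⟩ = C.D1.redF (f : FBar (M * q)) :=
  C.redB_algebraMap ⟨(f : FBar (M * q)), mem_RK.mpr ⟨hf, f.2⟩⟩

/-- surjectivity of `red_b` from surjectivity of `red₁₀` on `R` (helper1's `exists_lift`) -/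
theorem redB_surjective
    (hsurj : ∀ η : FRes A M', ∃ f : fixF (M * q) H, (f : FBar (M * q)) ∈ C.D1.O ∧
      C.D1.redF (f : FBar (M * q)) = η) : Function.Surjective C.redB := by
  intro η
  obtain ⟨f, hf, hη⟩ := hsurj η
  exact ⟨⟨alphaFix M q H f, (C.alphaFix_mem_Ob_iff f).mpr hf⟩, (C.redB_alphaFix f hf).trans hη⟩

/-- the total reduction of `v_b` -/
def redBF (f : fixF (M * q * q) H) : FRes A M' :=
  letI := Classical.propDecidable
  if h : f ∈ C.Ob then C.redB ⟨f, h⟩ else 0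

theorem redBF_of_mem {f : fixF (M * q * q) H} (h : f ∈ C.Ob) : C.redBF f = C.redB ⟨f, h⟩ := by
  classical
  rw [redBF, dif_pos h]

theorem redBF_alphaFix (f : fixF (M * q) H) (hf : (f : FBar (M * q)) ∈ C.D1.O) :
    C.redBF (alphaFix M q H f) = C.D1.redF (f : FBar (M * q)) := by
  rw [C.redBF_of_mem ((C.alphaFix_mem_Ob_iff f).mpr hf)]
  exact C.redB_alphaFix f hf

/-- the natural number `q` is `ϖ ^ (q-1)` up to a unit: `q ∈ O_b`, not a unit -/
theorem natCast_mem_Ob : ((q : ℕ) : fixF (M * q * q) H) ∈ C.Ob := natCast_mem _ q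

end EisCtx

/-- the context from LSb's `IsGaussOne`-type hypotheses -/
def EisCtx.ofMemRed {M q : ℕ} [NeZero M] [NeZero q] {A : ValuationSubring Qb} {H : Subgroup GQ}
    {M' : ℕ} (hqM : ¬ q ∣ M) (hA : A.LiesOverPrime q) (hH : A.inertiaSubgroupIn ℚ ≤ H)
    (D1 : GaussDatum A (FBar (M * q)) (FRes A M'))
    (hmem : ∀ (y : LaurentSeries A) (hy : toL A y ∈ modularFunctionFieldBar (M * q)),
      (⟨toL A y, hy⟩ : FBar (M * q)) ∈ D1.O)
    (hred : ∀ (y : LaurentSeries A) (hy : toL A y ∈ modularFunctionFieldBar (M * q)),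
      ((D1.redF (⟨toL A y, hy⟩ : FBar (M * q)) : FRes A M') :
        LaurentSeries (IsLocalRing.ResidueField A)) = toK A y) : EisCtx M q A H M' :=
  ⟨hqM, hA, hH, D1, ⟨hmem, hred⟩⟩

end Fermat.Agent.S36lib.Eis
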