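/-
S36lib / Eis / Ram  (helper2)

**The `K`-rational ramified Gauss datum `V₂` of the middle valuation `v_b = v₁₁`** at level `M q²`,
over the inertia-fixed base `(Kfix A, Wfix A)`, on `fixF (M q q) I`, `I = A.inertiaSubgroupIn ℚ`:

* `EisCtx.ramGaussDatum C hc hdvd : Thick.RamGaussDatum (Wfix A) (fixF (M q q) I) (FRes A M')`
  for a context `C : EisCtx M q A I M'` (my `Eis/Inst`), ANY `k_{Wfix A}`-algebra structure on
  `FRes A M'` compatible with the `k_A`-structure (`hc : Desc2.ResCompat A (FRes A M')`), `M' ∣ M q`;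
  `O = C.Ob`, `red = C.redB`, `unif = C.varpi = yTopFix − xTopFix`, `e = q − 1`;
* the table facts: `ramGaussDatum_O`, `ramGaussDatum_unif`, `varpi_eq`, `redF_alphaFix`,
  `redF_xTopFix`, `redF_yTopFix`, `unif_pow`, `algebraMap_natCast_mem`;
* `ramGaussK M q A hqM hA hc` : the concrete instance with `D1 = LSb.Val.gaussOne`.
-/
import Mathlib
import Fermat.Agent.S36lib.Eis.Inst
import Fermat.Agent.S36lib.Desc2.Inst
import Fermat.Agent.S36lib.Desc2.Places
import Fermat.Agent.S36lib.Thick.Datum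
import Fermat.Agent.S36lib.Norm.ThickBridge
import Fermat.Agent.S36lib.Norm.Along
import Fermat.Agent.LSb.Val.D1H

set_option autoImplicit false
set_option linter.unusedSectionVars false
set_option linter.unusedVariables false
set_option linter.style.haveILetI false

noncomputable section

namespace Fermat.Agent.S36lib.Eis

open ModularCurve Polynomial Fermat.Agent.S18lib Fermat.Agent.S18lib.V Fermat.Agent.S28lib
open Fermat.Agent.LSb.Val Fermat.Agent.S36lib.AL
open Fermat.Agent.S29lib.GH Fermat.Agent.S36lib.Desc2 Fermat.Agent.S36lib.Desc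
open Fermat.Agent.S36lib.Norm Fermat.Agent.S36lib.Thick IsLocalRing

local notation "Qb" => AlgebraicClosure ℚ
local notation "GQ" => (AlgebraicClosure ℚ ≃ₐ[ℚ] AlgebraicClosure ℚ)

namespace EisCtx

/-! ### identification of the uniformizer, for any `H ⊇ I` -/

section AnyH

variable {M q : ℕ} [NeZero M] [NeZero q] [hqF : Fact q.Prime] {A : ValuationSubring Qb}
  {H : Subgroup GQ} {M' : ℕ} (C : EisCtx M q A H M')

/-- `x = j(t)` of level `M q` in the fixed field -/
def xMidFix (M q : ℕ) [NeZero M] [NeZero q] (H : Subgroup GQ) : fixF (M * q) H :=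
  ⟨xMid M q, Desc2.jd_mem_fixF H 1 (one_dvd _)⟩

@[simp] theorem coe_xMidFix : ((xMidFix M q H : fixF (M * q) H) : FBar (M * q)) = xMid M q := rfl

/-- `α (j(t)) = j(t)` -/
theorem alphaFix_xMidFix : alphaFix M q H (xMidFix M q H) = xTopFix M q H := by
  apply Subtype.ext
  rw [coe_alphaFix]
  exact alpha_jd (M * q) q 1 (one_dvd _)

theorem algebraMap_xK :
    algebraMap (RK H C.D1) (fixF (M * q * q) H) C.xK = xTopFix M q H :=
  alphaFix_xMidFix

/-- **the uniformizer is `j(t^(q²)) − j(t)`** -/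
theorem varpi_eq : C.varpi = yTopFix M q H - xTopFix M q H := by
  rw [varpi, algebraMap_xK]

theorem xMidFix_mem : ((xMidFix M q H : fixF (M * q) H) : FBar (M * q)) ∈ C.D1.O :=
  jd_mem_O C.hD 1 (one_dvd _)

theorem xTopFix_mem : xTopFix M q H ∈ C.Ob := by
  rw [← alphaFix_xMidFix, C.alphaFix_mem_Ob_iff]
  exact C.xMidFix_mem

theorem yTopFix_mem : yTopFix M q H ∈ C.Ob := by
  have h : yTopFix M q H = C.varpi + xTopFix M q H := by rw [C.varpi_eq, sub_add_cancel]
  rw [h]
  exact C.Ob.add_mem _ _ C.varpi_mem C.xTopFix_mem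

/-- `red_b (j(t)) = red₁₀ (j(t))` -/
theorem redB_xTopFix : C.redB ⟨xTopFix M q H, C.xTopFix_mem⟩ = C.D1.redF (xMid M q) := by
  have h := C.redB_alphaFix (xMidFix M q H) C.xMidFix_mem
  refine Eq.trans ?_ h
  congr 1

/-- `red_b (j(t^(q²))) = red_b (j(t))` -/
theorem redB_yTopFix : C.redB ⟨yTopFix M q H, C.yTopFix_mem⟩ = C.D1.redF (xMid M q) := by
  have h : (⟨yTopFix M q H, C.yTopFix_mem⟩ : C.Ob) =
      ⟨C.varpi, C.varpi_mem⟩ + ⟨xTopFix M q H, C.xTopFix_mem⟩ := by
    apply Subtype.ext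
    show yTopFix M q H = C.varpi + xTopFix M q H
    rw [C.varpi_eq, sub_add_cancel]
  rw [h, map_add, C.redB_varpi, zero_add, C.redB_xTopFix]

/-- the reduction of `j(t)` is `j̄` (as a `t`-series) -/
theorem coe_redF_xMid :
    ((C.D1.redF (xMid M q) : FRes A M') : LaurentSeries (ResidueField A)) =
      jqModC (ResidueField A) := by
  have h := coe_redF_jd C.hD 1 (one_dvd (M * q))
  rw [qExpand_one_apply] at h
  exact h

end AnyH

variable {M q : ℕ} [NeZero M] [NeZero q] [hqF : Fact q.Prime] {A : ValuationSubring Qb}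
  {M' : ℕ} (C : EisCtx M q A (A.inertiaSubgroupIn ℚ) M')

local notation "II" => A.inertiaSubgroupIn ℚ

/-- constants of `Kfix A` inside `O_b` -/
theorem algebraMap_Kfix_mem_Ob_iff (c : Kfix A) :
    algebraMap (Kfix A) (fixF (M * q * q) II) c ∈ C.Ob ↔ c ∈ Wfix A := by
  rw [← alphaFix_algebraMap M q II c, C.alphaFix_mem_Ob_iff, coe_algebraMap_fixF,
    C.D1.algebraMap_mem_iff]
  rfl

variable [Algebra (ResidueField (Wfix A)) (FRes A M')]

theorem redB_algebraMap_Kfix (hc : ResCompat A (FRes A M')) (a : Wfix A)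
    (h : algebraMap (Kfix A) (fixF (M * q * q) II) (a : Kfix A) ∈ C.Ob) :
    C.redB ⟨algebraMap (Kfix A) (fixF (M * q * q) II) (a : Kfix A), h⟩ =
      algebraMap (ResidueField (Wfix A)) (FRes A M') (residue (Wfix A) a) := by
  have hmem : ((algebraMap (Kfix A) (fixF (M * q) II) (a : Kfix A) : fixF (M * q) II) :
      FBar (M * q)) ∈ C.D1.O := by
    rw [coe_algebraMap_fixF, C.D1.algebraMap_mem_iff]
    exact a.2
  have h1 := C.redB_alphaFix (algebraMap (Kfix A) (fixF (M * q) II) (a : Kfix A)) hmem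
  have h2 : (⟨algebraMap (Kfix A) (fixF (M * q * q) II) (a : Kfix A), h⟩ : C.Ob) =
      ⟨alphaFix M q II (algebraMap (Kfix A) (fixF (M * q) II) (a : Kfix A)),
        (C.alphaFix_mem_Ob_iff _).mpr hmem⟩ :=
    Subtype.ext (alphaFix_algebraMap M q II (a : Kfix A)).symm
  rw [h2, h1, coe_algebraMap_fixF]
  have h3 := C.D1.redF_algebraMap ⟨algebraMap (Kfix A) Qb (a : Kfix A), a.2⟩
  rw [h3]
  exact (algCompat_of_resCompat hc a a.2).symm

/-- **the `K`-rational ramified Gauss datum of `v_b`** -/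
def ramGaussDatum (hc : ResCompat A (FRes A M')) (hdvd : M' ∣ M * q) :
    RamGaussDatum (Wfix A) (fixF (M * q * q) II) (FRes A M') where
  O := C.Ob
  algebraMap_mem_iff := C.algebraMap_Kfix_mem_Ob_iff
  red := C.redB
  red_surjective := C.redB_surjective fun η => by
    obtain ⟨f, hf, hfO, hη⟩ := exists_fixF_lift_of_coe II C.D1 C.hD.mem C.hD.red
      (fun a => by
        obtain ⟨r, hr, hra⟩ := residueSurj_Wfix hqF.out C.hA a
        exact ⟨(r : Kfix A), hr, hra⟩) hdvd η
    exact ⟨⟨f, hf⟩, hfO, hη⟩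
  red_algebraMap := C.redB_algebraMap_Kfix hc
  unif := C.varpi
  unif_mem := C.varpi_mem
  red_unif := C.redB_varpi
  exists_zpow_mul_isUnit := fun f hf => C.exists_zpow_mul_unit_Ob hf

variable (hc : ResCompat A (FRes A M')) (hdvd : M' ∣ M * q)

@[simp] theorem ramGaussDatum_O : (C.ramGaussDatum hc hdvd).O = C.Ob := rfl

@[simp] theorem ramGaussDatum_red : (C.ramGaussDatum hc hdvd).red = C.redB := rfl

@[simp] theorem ramGaussDatum_unif : (C.ramGaussDatum hc hdvd).unif = C.varpi := rfl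

/-- the total reduction of the datum is `redBF` -/
theorem ofRamGauss_redF (f : fixF (M * q * q) II) :
    (ofRamGauss (C.ramGaussDatum hc hdvd)).redF f = C.redBF f := by
  classical
  by_cases h : f ∈ C.Ob
  · rw [C.redBF_of_mem h]
    exact (ofRamGauss (C.ramGaussDatum hc hdvd)).redF_of_mem h
  · rw [redBF, dif_neg h]
    exact (ofRamGauss (C.ramGaussDatum hc hdvd)).redF_of_not_mem h

/-- **row `v_b | v₁₀` along `α`, membership** -/
theorem alphaFix_mem_ramGaussDatum_iff (f : fixF (M * q) II) :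
    alphaFix M q II f ∈ (C.ramGaussDatum hc hdvd).O ↔ (f : FBar (M * q)) ∈ C.D1.O :=
  C.alphaFix_mem_Ob_iff f

/-- **row `v_b | v₁₀` along `α`, reduction** (no integrality hypothesis) -/
theorem redF_alphaFix (f : fixF (M * q) II) :
    (ofRamGauss (C.ramGaussDatum hc hdvd)).redF (alphaFix M q II f) =
      C.D1.redF (f : FBar (M * q)) := by
  by_cases hf : (f : FBar (M * q)) ∈ C.D1.O
  · rw [ofRamGauss_redF, C.redBF_alphaFix f hf]
  · rw [C.D1.redF_of_not_mem hf]
    exact (ofRamGauss (C.ramGaussDatum hc hdvd)).redF_of_not_mem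
      (fun h => hf ((C.alphaFix_mem_Ob_iff f).mp h))

/-- the uniformizer of the datum is `j(t^(q²)) − j(t)` -/
theorem ramGaussDatum_unif_eq :
    (C.ramGaussDatum hc hdvd).unif = yTopFix M q II - xTopFix M q II := C.varpi_eq

theorem ramGaussDatum_unif_ne_zero : (C.ramGaussDatum hc hdvd).unif ≠ 0 := C.varpi_ne_zero

/-- **`ϖ ^ (q − 1) = q · unit`** in the shape of the field `unif_pow` of `ThickCtx` -/
theorem ramGaussDatum_unif_pow :
    ∃ u : (C.ramGaussDatum hc hdvd).Oˣ, (C.ramGaussDatum hc hdvd).unif ^ (q - 1) =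
      algebraMap (Kfix A) (fixF (M * q * q) II) ((q : ℕ) : Kfix A) *
        ((u : (C.ramGaussDatum hc hdvd).O) : fixF (M * q * q) II) := by
  obtain ⟨u, hu⟩ := C.varpi_pow
  refine ⟨u, ?_⟩
  rw [map_natCast]
  exact hu

theorem xTopFix_mem_ramGaussDatum : xTopFix M q II ∈ (C.ramGaussDatum hc hdvd).O := C.xTopFix_mem

theorem yTopFix_mem_ramGaussDatum : yTopFix M q II ∈ (C.ramGaussDatum hc hdvd).O := C.yTopFix_mem

/-- `red_b (j(t)) = red₁₀ (j(t))` -/
theorem redF_xTopFix :
    (ofRamGauss (C.ramGaussDatum hc hdvd)).redF (xTopFix M q II) = C.D1.redF (xMid M q) := by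
  rw [(ofRamGauss (C.ramGaussDatum hc hdvd)).redF_of_mem C.xTopFix_mem]
  exact C.redB_xTopFix

/-- `red_b (j(t^(q²))) = red₁₀ (j(t))` -/
theorem redF_yTopFix :
    (ofRamGauss (C.ramGaussDatum hc hdvd)).redF (yTopFix M q II) = C.D1.redF (xMid M q) := by
  rw [(ofRamGauss (C.ramGaussDatum hc hdvd)).redF_of_mem C.yTopFix_mem]
  exact C.redB_yTopFix

/-- the reduction of `j` at `v_b` is `j̄` -/
theorem coe_redF_xTopFix :
    (((ofRamGauss (C.ramGaussDatum hc hdvd)).redF (xTopFix M q II) : FRes A M') :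
      LaurentSeries (ResidueField A)) = jqModC (ResidueField A) := by
  rw [redF_xTopFix]
  exact C.coe_redF_xMid

/-! ### the record `v_b | v₁₀` along `α` (helper7's `RamOverAlong`, helper8's `TowerData.pb`) -/

theorem isArch_ramGaussDatum : IsArch (C.ramGaussDatum hc hdvd).O :=
  isArch_ofRamGauss _ C.varpi_ne_zero

theorem isUnif_ramGaussDatum : IsUnif (C.ramGaussDatum hc hdvd).O C.varpi :=
  isUnif_ofRamGauss (C.ramGaussDatum hc hdvd) C.varpi_ne_zero

/-- `v_b (q) = v_b (ϖ) ^ (q − 1)` -/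
theorem valuation_natCast_ramGaussDatum :
    (C.ramGaussDatum hc hdvd).O.valuation ((q : ℕ) : fixF (M * q * q) II) =
      (C.ramGaussDatum hc hdvd).O.valuation C.varpi ^ (q - 1) := by
  obtain ⟨u, hu⟩ := C.varpi_pow
  have h := congrArg (C.ramGaussDatum hc hdvd).O.valuation hu
  rw [map_pow, map_mul] at h
  have hu1 : (C.ramGaussDatum hc hdvd).O.valuation ((u : C.Ob) : fixF (M * q * q) II) = 1 :=
    (C.ramGaussDatum hc hdvd).O.valuation_unit u
  rw [hu1, mul_one] at h
  exact h.symm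

/-- **`v_b` over any place `P'` of `fixF (M q) I` with the ring and the reduction of `D1`, along
`α`**: unramified residue extension (`ι = id`), ramification index `q − 1` with respect to any
`π₁ = q`. -/
theorem ramOverAlong_alphaFix (P' : Place (fixF (M * q) II) (FRes A M'))
    (hO : ∀ y : fixF (M * q) II, y ∈ P'.O → (y : FBar (M * q)) ∈ C.D1.O)
    (hred : ∀ y : fixF (M * q) II, y ∈ P'.O → P'.redF y = C.D1.redF (y : FBar (M * q)))
    (π₁ : fixF (M * q) II) (hπ₁ : π₁ = ((q : ℕ) : fixF (M * q) II)) :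
    RamOverAlong (alphaFix M q II) (RingHom.id (FRes A M')) P' π₁
      (ofRamGauss (C.ramGaussDatum hc hdvd)) C.varpi (q - 1) where
  mem := fun y hy => (C.alphaFix_mem_Ob_iff y).mpr (hO y hy)
  red := fun y hy => by
    rw [C.redF_alphaFix hc hdvd y, hred y hy]
    rfl
  arch := C.isArch_ramGaussDatum hc hdvd
  unif := C.isUnif_ramGaussDatum hc hdvd
  ram := by
    rw [hπ₁, map_natCast]
    exact C.valuation_natCast_ramGaussDatum hc hdvd

end EisCtx

/-! ### the concrete instance -/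

section Concrete

variable (M q : ℕ) [NeZero M] [NeZero q] [hqF : Fact q.Prime] (A : ValuationSubring Qb)
  (hqM : ¬ q ∣ M) (hA : A.LiesOverPrime q)

/-- the Eisenstein context of `LSb.Val.gaussOne` for the inertia group -/
def eisCtxOne : EisCtx M q A (A.inertiaSubgroupIn ℚ) M :=
  EisCtx.ofMemRed hqM hA le_rfl (gaussOne M q A hqM hA)
    (isGaussOne_gaussOne M q A hqM hA).mem (isGaussOne_gaussOne M q A hqM hA).red

@[simp] theorem eisCtxOne_D1 : (eisCtxOne M q A hqM hA).D1 = gaussOne M q A hqM hA := rfl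

variable [Algebra (ResidueField (Wfix A)) (FRes A M)]

/-- **the `K`-rational `v_b = v₁₁` of level `M q²`** over `(Kfix A, Wfix A)`, for any
`k_{Wfix A}`-algebra structure on `FRes A M` compatible with the `k_A`-structure
(helper1's `Desc2.resAlgebraOn`, helper5's `Inst.instAlgebraResW`: `hc := fun _ => rfl`). -/
def ramGaussK (hc : ResCompat A (FRes A M)) :
    RamGaussDatum (Wfix A) (fixF (M * q * q) (A.inertiaSubgroupIn ℚ)) (FRes A M) :=
  (eisCtxOne M q A hqM hA).ramGaussDatum hc (Dvd.intro q rfl)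

variable (hc : ResCompat A (FRes A M))

theorem ramGaussK_O : (ramGaussK M q A hqM hA hc).O = (eisCtxOne M q A hqM hA).Ob := rfl

theorem ramGaussK_unif :
    (ramGaussK M q A hqM hA hc).unif =
      yTopFix M q (A.inertiaSubgroupIn ℚ) - xTopFix M q (A.inertiaSubgroupIn ℚ) :=
  (eisCtxOne M q A hqM hA).varpi_eq

theorem ramGaussK_unif_ne_zero : (ramGaussK M q A hqM hA hc).unif ≠ 0 :=
  (eisCtxOne M q A hqM hA).varpi_ne_zero

/-- the field `unif_pow` of `ThickCtx` (`π = q`, `e = q − 1`) -/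
theorem ramGaussK_unif_pow :
    ∃ u : (ramGaussK M q A hqM hA hc).Oˣ, (ramGaussK M q A hqM hA hc).unif ^ (q - 1) =
      algebraMap (Kfix A) (fixF (M * q * q) (A.inertiaSubgroupIn ℚ)) ((q : ℕ) : Kfix A) *
        ((u : (ramGaussK M q A hqM hA hc).O) : fixF (M * q * q) (A.inertiaSubgroupIn ℚ)) :=
  (eisCtxOne M q A hqM hA).ramGaussDatum_unif_pow hc (Dvd.intro q rfl)

/-- **row `v_b | v₁₀` along `α`, membership** -/
theorem alphaFix_mem_ramGaussK_iff (f : fixF (M * q) (A.inertiaSubgroupIn ℚ)) :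
    alphaFix M q (A.inertiaSubgroupIn ℚ) f ∈ (ramGaussK M q A hqM hA hc).O ↔
      (f : FBar (M * q)) ∈ (gaussOne M q A hqM hA).O :=
  (eisCtxOne M q A hqM hA).alphaFix_mem_Ob_iff f

/-- **row `v_b | v₁₀` along `α`, reduction** -/
theorem ramGaussK_redF_alphaFix (f : fixF (M * q) (A.inertiaSubgroupIn ℚ)) :
    (ofRamGauss (ramGaussK M q A hqM hA hc)).redF (alphaFix M q (A.inertiaSubgroupIn ℚ) f) =
      (gaussOne M q A hqM hA).redF (f : FBar (M * q)) :=
  (eisCtxOne M q A hqM hA).redF_alphaFix hc (Dvd.intro q rfl) f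

/-- **the reduction of `j` at `v_b` is `j̄`** -/
theorem ramGaussK_redF_xTopFix :
    (ofRamGauss (ramGaussK M q A hqM hA hc)).redF (xTopFix M q (A.inertiaSubgroupIn ℚ)) =
      Gink.jK A M :=
  Subtype.ext ((eisCtxOne M q A hqM hA).coe_redF_xTopFix hc (Dvd.intro q rfl))

/-- the reduction of `j(t^(q²))` at `v_b` is `j̄` -/
theorem ramGaussK_redF_yTopFix :
    (ofRamGauss (ramGaussK M q A hqM hA hc)).redF (yTopFix M q (A.inertiaSubgroupIn ℚ)) =
      Gink.jK A M := by
  rw [← ramGaussK_redF_xTopFix M q A hqM hA hc]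
  exact ((eisCtxOne M q A hqM hA).redF_yTopFix hc (Dvd.intro q rfl)).trans
    ((eisCtxOne M q A hqM hA).redF_xTopFix hc (Dvd.intro q rfl)).symm

end Concrete

/-! ### over helper1's `K`-rational `gaussOneK` (instance `Desc2.resAlgebraOn`) -/

section ConcreteK

open scoped Fermat.Agent.S36lib.Desc2

variable (M q : ℕ) [NeZero M] [NeZero q] [hqF : Fact q.Prime] (A : ValuationSubring Qb)
  (hqM : ¬ q ∣ M) (hA : A.LiesOverPrime q)

/-- **the record `v_b | v₁₀` along `α`** over helper1's `K`-rational `gaussOneK`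
(`TowerData.pb` of helper8's `Mid/Three`, with `π₁ = q`, `e_b = q − 1`) -/
theorem ramOverAlong_ramGaussK (π₁ : fixF (M * q) (A.inertiaSubgroupIn ℚ))
    (hπ₁ : π₁ = ((q : ℕ) : fixF (M * q) (A.inertiaSubgroupIn ℚ))) :
    RamOverAlong (alphaFix M q (A.inertiaSubgroupIn ℚ)) (RingHom.id (FRes A M))
      (ofGauss (gaussOneK M q A hqM hA)) π₁
      (ofRamGauss (ramGaussK M q A hqM hA (resCompat_resAlgebraOn A (FRes A M))))
      (yTopFix M q (A.inertiaSubgroupIn ℚ) - xTopFix M q (A.inertiaSubgroupIn ℚ)) (q - 1) := by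
  rw [← ramGaussK_unif M q A hqM hA (resCompat_resAlgebraOn A (FRes A M))]
  exact (eisCtxOne M q A hqM hA).ramOverAlong_alphaFix (resCompat_resAlgebraOn A (FRes A M))
    (Dvd.intro q rfl) (ofGauss (gaussOneK M q A hqM hA)) (fun y hy => hy)
    (fun y _ => gaussOneK_redF M q A hqM hA y) π₁ hπ₁

end ConcreteK

end Fermat.Agent.S36lib.Eis
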